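/-
S25, block DICTDEG (helper687): interface statements (definitions of `Prop`s only).

`Stmt.DictDeg Ch` is assembled in `DDMain.lean` from
* the dictionary statements `DictSections`, `DictIso`, `DictBC`, `AlgBCExists` (frozen, row-lead),
* `DictUnit`   (block DICT): the unit bundle corresponds to the unit gluing datum,
* `BCId`, `BCComp`, `DegIso` (block GDC): identity / composition of base changes, degree is
  invariant under isomorphism,
* `DegConst`   (block DEGREE): over a domain all fibres of a gluing datum have the same degree,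
* `AbelAlg`    (block ABEL): the Abel family, with the hypothesis "degree zero" in algebraic form,
* `FamilyData` (block DICTDEG, scheme bookkeeping): an algebraic equivalence to zero yields two
  rigidified affine charts of the family which meet at the generic point.
-/
import Fermat.Agent.S25.DefsDict

set_option autoImplicit false
universe u
open CategoryTheory CategoryTheory.Limits AlgebraicGeometry AlgebraicGeometry.RelPicard
  NeronModelInfra GoodReductionJacobian
open scoped TensorProduct

namespace Fermat.Agent.S25.H687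

noncomputable section

variable {k : Type u} [Field k] {C : Scheme.{u}} {c : C ⟶ Spec (CommRingCat.of k)}
  {ε : SchemeHomOver (𝟙 (Spec (CommRingCat.of k))) c}

section Alg

variable (k) (B₀ B₁ B₀₁ : Type u) [CommRing B₀] [CommRing B₁] [CommRing B₀₁]
  [Algebra k B₀] [Algebra k B₁] [Algebra k B₀₁] [Algebra B₀ B₀₁] [Algebra B₁ B₀₁]
  [IsScalarTower k B₀ B₀₁] [IsScalarTower k B₁ B₀₁]

/-- GDC: every gluing datum is a base change of itself along the identity. -/
def BCId : Prop :=
  ∀ (A : Type u) [CommRing A] [Algebra k A] (G : CurveGD k B₀ B₁ B₀₁ A),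
    CurveGD.IsBC (AlgHom.id k A) G G

/-- GDC: base changes compose. -/
def BCComp : Prop :=
  ∀ (A A' A'' : Type u) [CommRing A] [Algebra k A] [CommRing A'] [Algebra k A']
    [CommRing A''] [Algebra k A''] (φ : A →ₐ[k] A') (ψ : A' →ₐ[k] A'')
    (G : CurveGD k B₀ B₁ B₀₁ A) (G' : CurveGD k B₀ B₁ B₀₁ A') (G'' : CurveGD k B₀ B₁ B₀₁ A''),
    CurveGD.IsBC φ G G' → CurveGD.IsBC ψ G' G'' → CurveGD.IsBC (ψ.comp φ) G G''

/-- GDC: over a field, isomorphic gluing data have the same degree. -/
def DegIso : Prop :=
  ∀ (K : Type u) [Field K] [Algebra k K] (G G' : CurveGD k B₀ B₁ B₀₁ K),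
    G.IsIso G' → G.degree = G'.degree

/-- DEGREE: over a domain `A`, all fibres of a gluing datum have the same degree
(local constancy of the degree on the connected space `Spec A` + invariance under extension
of the base field). -/
def DegConst : Prop :=
  ∀ (x : B₀) (y : B₁) (e : B₁ →ₐ[k] k), IsCurveChart k B₀ B₁ B₀₁ x y e →
    ∀ (A : Type u) [CommRing A] [IsDomain A] [Algebra k A] (G : CurveGD k B₀ B₁ B₀₁ A)
      (K₁ K₂ : Type u) [Field K₁] [Field K₂] [Algebra k K₁] [Algebra k K₂]
      (φ₁ : A →ₐ[k] K₁) (φ₂ : A →ₐ[k] K₂)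
      (G₁ : CurveGD k B₀ B₁ B₀₁ K₁) (G₂ : CurveGD k B₀ B₁ B₀₁ K₂),
      CurveGD.IsBC φ₁ G G₁ → CurveGD.IsBC φ₂ G G₂ → G₁.degree = G₂.degree

end Alg

variable (Ch : ChartOf c ε)

/-- DICT: the unit line bundle corresponds to the unit gluing datum. -/
def DictUnit : Prop :=
  ∀ (A : Type u) [CommRing A] [Algebra k A],
    Corr Ch A (RigidifiedLineBundle.unit (c := c) (ε := ε) (specStr k A)).L
      (GlueDatum.unit A (A ⊗[k] Ch.B₀) (A ⊗[k] Ch.B₁) (A ⊗[k] Ch.B₀₁))

/-- ABEL, algebraic form: a proper geometrically integral `X` with a rigidified family which is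
trivial at a `k`-point `x₀` and has every line bundle of degree zero (in the sense of gluing
data) over an algebraically closed field as a fibre. -/
def AbelAlg : Prop :=
  ∃ (X : Scheme.{u}) (x : X ⟶ Spec (CommRingCat.of k)) (_ : IsProper x)
    (_ : GeometricallyIntegral x) (M : RigidifiedLineBundle c ε x)
    (x₀ : SchemeHomOver (𝟙 (Spec (CommRingCat.of k))) x),
    Nonempty ((M.pullbackAlong x₀).L ≅
      SheafOfModules.unit (pullback c (𝟙 (Spec (CommRingCat.of k)))).ringCatSheaf) ∧
      ∀ (K : Type u) [Field K] [IsAlgClosed K] [Algebra k K]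
        (L : RigidifiedLineBundle c ε (specStr k K)) (G : CurveGD k Ch.B₀ Ch.B₁ Ch.B₀₁ K),
        Corr Ch K L.L G → G.degree = 0 →
        ∃ p : SchemeHomOver (specStr k K) x, RIso (M.pullbackAlong p) L

end

section Family

variable {k : Type u} [Field k] {C : Scheme.{u}} (c : C ⟶ Spec (CommRingCat.of k))
  (ε : SchemeHomOver (𝟙 (Spec (CommRingCat.of k))) c)

/-- FAMILY-DATA (scheme bookkeeping; no chart needed): an algebraic equivalence to zero of a
rigidified line bundle `L` over an algebraically closed field `K` yields two rigidified families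
`N₀`, `N₁` over domains `A₀`, `A₁`, with `K`-points `a₀`, `a₁` at which the fibres are the trivial
bundle resp. `L`, and which become isomorphic over a common field `F` (the function field of
the parameter space). -/
def FamilyData : Prop :=
  ∀ (K : Type u) [Field K] [IsAlgClosed K] [Algebra k K]
    (L : RigidifiedLineBundle c ε (specStr k K)),
    IsAlgEquivZero (pullback.snd c (specStr k K)) L.L →
    ∃ (A₀ A₁ F : Type u) (_ : CommRing A₀) (_ : CommRing A₁) (_ : Field F)
      (_ : IsDomain A₀) (_ : IsDomain A₁)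
      (_ : Algebra k A₀) (_ : Algebra k A₁) (_ : Algebra k F)
      (N₀ : RigidifiedLineBundle c ε (specStr k A₀))
      (N₁ : RigidifiedLineBundle c ε (specStr k A₁))
      (a₀ : A₀ →ₐ[k] K) (a₁ : A₁ →ₐ[k] K) (b₀ : A₀ →ₐ[k] F) (b₁ : A₁ →ₐ[k] F),
      RIso (N₀.pullbackAlong (specHomOver k a₀)) (RigidifiedLineBundle.unit (specStr k K)) ∧
      RIso (N₁.pullbackAlong (specHomOver k a₁)) L ∧
      RIso (N₀.pullbackAlong (specHomOver k b₀)) (N₁.pullbackAlong (specHomOver k b₁))

end Family

end Fermat.Agent.S25.H687
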