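/-
S25, block DICTDEG (helper687): formal lemmas about the Prelude's `IsAlgEquivZero` /
`FibrewiseAlgEquivZero`.

* `pullbackIsoOfFac`   : `f^* g^* L ≅ h^* L` when `f ≫ g = h`.
* `pullbackIsoOfSq`    : `f^* g^* L ≅ f'^* g'^* L` when `f ≫ g = f' ≫ g'`.
* `fibrewiseAlgEquivZero_of_trivial_fibre` (FAM): a rigidified line bundle over a locally
  finite type, geometrically integral base `X` whose fibre at one `k`-point is trivial is
  fibrewise algebraically equivalent to zero.
-/
import Fermat.Agent.S25.DefsDict

set_option autoImplicit false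
set_option linter.unusedSimpArgs false
universe u
open CategoryTheory CategoryTheory.Limits AlgebraicGeometry AlgebraicGeometry.RelPicard
  NeronModelInfra GoodReductionJacobian

namespace Fermat.Agent.S25.H687

noncomputable section

/-- `f^* g^* L ≅ h^* L` when `f ≫ g = h`. -/
def pullbackIsoOfFac {X Y Z : Scheme.{u}} (f : X ⟶ Y) (g : Y ⟶ Z) (h : X ⟶ Z)
    (e : f ≫ g = h) (L : Z.Modules) :
    (Scheme.Modules.pullback f).obj ((Scheme.Modules.pullback g).obj L) ≅
      (Scheme.Modules.pullback h).obj L :=
  (Scheme.Modules.pullbackComp f g).app L ≪≫ (Scheme.Modules.pullbackCongr e).app L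

/-- `f^* g^* L ≅ f'^* g'^* L` when `f ≫ g = f' ≫ g'`. -/
def pullbackIsoOfSq {X Y Y' Z : Scheme.{u}} (f : X ⟶ Y) (g : Y ⟶ Z) (f' : X ⟶ Y')
    (g' : Y' ⟶ Z) (e : f ≫ g = f' ≫ g') (L : Z.Modules) :
    (Scheme.Modules.pullback f).obj ((Scheme.Modules.pullback g).obj L) ≅
      (Scheme.Modules.pullback f').obj ((Scheme.Modules.pullback g').obj L) :=
  pullbackIsoOfFac f g (f' ≫ g') e L ≪≫ ((Scheme.Modules.pullbackComp f' g').app L).symm

variable {k : Type u} [Field k] {C : Scheme.{u}} {c : C ⟶ Spec (CommRingCat.of k)}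
  {ε : SchemeHomOver (𝟙 (Spec (CommRingCat.of k))) c}

/-- **FAM.** A family of line bundles on `C` parametrised by a locally finite type,
geometrically integral `k`-scheme `X`, one of whose fibres (at a `k`-point `x₀`) is trivial, is
fibrewise algebraically equivalent to zero. -/
theorem fibrewiseAlgEquivZero_of_trivial_fibre {X : Scheme.{u}}
    (x : X ⟶ Spec (CommRingCat.of k)) [LocallyOfFiniteType x] [GeometricallyIntegral x]
    (M : RigidifiedLineBundle c ε x) (x₀ : SchemeHomOver (𝟙 (Spec (CommRingCat.of k))) x)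
    (h₀ : Nonempty ((M.pullbackAlong x₀).L ≅
      SheafOfModules.unit (pullback c (𝟙 (Spec (CommRingCat.of k)))).ringCatSheaf)) :
    FibrewiseAlgEquivZero M := by
  intro K _ _ s
  obtain ⟨e₀⟩ := h₀
  -- the structure map of `Spec K`
  let σ : Spec (CommRingCat.of K) ⟶ Spec (CommRingCat.of k) := s ≫ x
  -- the parameter space `T' = X_K`
  let h : pullback x σ ⟶ Spec (CommRingCat.of K) := pullback.snd x σ
  let a := fibreAt c x s
  -- the two points
  let t₁ : SchemeHomOver (𝟙 (Spec (CommRingCat.of K))) h :=
    ⟨pullback.lift s (𝟙 _) (by simp [σ]), pullback.lift_snd _ _ _⟩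
  let t₀ : SchemeHomOver (𝟙 (Spec (CommRingCat.of K))) h :=
    ⟨pullback.lift (σ ≫ x₀.1) (𝟙 _) (by rw [Category.assoc, x₀.2]; simp),
      pullback.lift_snd _ _ _⟩
  -- the map `F ×_K T' ⟶ C × X`
  have hcond : (pullback.fst a h ≫ pullback.fst (pullback.snd c x) s ≫ pullback.fst c x) ≫ c =
      (pullback.snd a h ≫ pullback.fst x σ) ≫ x := by
    have h1 : pullback.fst (pullback.snd c x) s ≫ pullback.fst c x ≫ c =
        pullback.snd (pullback.snd c x) s ≫ σ := by
      rw [pullback.condition, ← Category.assoc, pullback.condition, Category.assoc]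
    have h2 : pullback.fst a h ≫ a = pullback.snd a h ≫ h := pullback.condition
    simp only [Category.assoc]
    rw [h1, pullback.condition]
    change pullback.fst a h ≫ a ≫ σ = pullback.snd a h ≫ h ≫ σ
    rw [← Category.assoc, h2, Category.assoc]
  let g : pullback a h ⟶ pullback c x :=
    pullback.lift (pullback.fst a h ≫ pullback.fst (pullback.snd c x) s ≫ pullback.fst c x)
      (pullback.snd a h ≫ pullback.fst x σ) hcond
  refine ⟨pullback x σ, h, inferInstance, inferInstance, (Scheme.Modules.pullback g).obj M.L,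
    M.isInvertible.pullback g, t₀, t₁, ⟨?_⟩, ⟨?_⟩⟩
  · -- fibre at `t₀` is trivial
    have hq : (pullback.fst a (𝟙 _) ≫ pullback.fst (pullback.snd c x) s ≫ pullback.fst c x) ≫ c =
        (pullback.snd a (𝟙 (Spec (CommRingCat.of K))) ≫ σ) ≫ 𝟙 _ := by
      have h1 : pullback.fst (pullback.snd c x) s ≫ pullback.fst c x ≫ c =
          pullback.snd (pullback.snd c x) s ≫ σ := by
        rw [pullback.condition, ← Category.assoc, pullback.condition, Category.assoc]
      simp only [Category.assoc, Category.comp_id]
      rw [h1]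
      have h2 : pullback.fst a (𝟙 (Spec (CommRingCat.of K))) ≫ a =
          pullback.snd a (𝟙 _) ≫ 𝟙 _ := pullback.condition
      rw [Category.comp_id] at h2
      change pullback.fst a (𝟙 _) ≫ a ≫ σ = _
      rw [← Category.assoc, h2]
    let q : pullback a (𝟙 (Spec (CommRingCat.of K))) ⟶ pullback c (𝟙 (Spec (CommRingCat.of k))) :=
      pullback.lift (pullback.fst a (𝟙 _) ≫ pullback.fst (pullback.snd c x) s ≫ pullback.fst c x)
        (pullback.snd a (𝟙 _) ≫ σ) hq
    have hfac : baseChangeSnd a t₀ ≫ g = q ≫ baseChangeSnd c x₀ := by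
      apply pullback.hom_ext
      · simp only [baseChangeSnd, g, q, Category.assoc, pullback.lift_fst, pullback.lift_snd,
          pullback.lift_fst_assoc, pullback.lift_snd_assoc, Category.comp_id, Category.id_comp]
      · simp only [baseChangeSnd, g, q, t₀, Category.assoc, pullback.lift_fst, pullback.lift_snd,
          pullback.lift_fst_assoc, pullback.lift_snd_assoc, Category.comp_id, Category.id_comp]
    exact pullbackIsoOfSq _ _ _ _ hfac M.L ≪≫ (Scheme.Modules.pullback q).mapIso e₀ ≪≫
      Scheme.Modules.pullbackUnitIso q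
  · -- fibre at `t₁` is the fibre of `M` at `s`
    have hfac : baseChangeSnd a t₁ ≫ g =
        pullback.fst a (𝟙 _) ≫ pullback.fst (pullback.snd c x) s := by
      apply pullback.hom_ext
      · simp only [baseChangeSnd, g, Category.assoc, pullback.lift_fst, pullback.lift_snd,
          pullback.lift_fst_assoc, pullback.lift_snd_assoc, Category.comp_id, Category.id_comp]
      · simp only [baseChangeSnd, g, t₁, Category.assoc, pullback.lift_snd, pullback.lift_fst,
          pullback.lift_snd_assoc, pullback.lift_fst_assoc, Category.comp_id, Category.id_comp]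
        have h2 : pullback.fst a (𝟙 (Spec (CommRingCat.of K))) ≫ a =
            pullback.snd a (𝟙 _) ≫ 𝟙 _ := pullback.condition
        rw [Category.comp_id] at h2
        rw [pullback.condition, ← h2]
        rfl
    exact pullbackIsoOfSq _ _ _ _ hfac M.L

/-- **FIB (forward).** Geometric fibres of a fibrewise algebraically-equivalent-to-zero family,
written as `pullbackAlong`. -/
theorem isAlgEquivZero_pullbackAlong_of_fibrewise {T : Scheme.{u}}
    {t : T ⟶ Spec (CommRingCat.of k)} (M : RigidifiedLineBundle c ε t)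
    (hM : FibrewiseAlgEquivZero M) (K : Type u) [Field K] [IsAlgClosed K]
    (t' : Spec (CommRingCat.of K) ⟶ Spec (CommRingCat.of k)) (ψ : SchemeHomOver t' t) :
    IsAlgEquivZero (pullback.snd c t') (M.pullbackAlong ψ).L := by
  have hcond : baseChangeSnd c ψ ≫ pullback.snd c t = pullback.snd c t' ≫ ψ.1 := by
    simp only [baseChangeSnd, pullback.lift_snd]
  let e : pullback c t' ⟶ pullback (pullback.snd c t) ψ.1 :=
    pullback.lift (baseChangeSnd c ψ) (pullback.snd c t') hcond
  have he : e ≫ fibreAt c t ψ.1 = pullback.snd c t' := pullback.lift_snd _ _ _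
  have hfst : e ≫ pullback.fst (pullback.snd c t) ψ.1 = baseChangeSnd c ψ :=
    pullback.lift_fst _ _ _
  exact IsAlgEquivZero.of_iso (pullbackIsoOfFac _ _ _ hfst M.L) ((hM K ψ.1).pullback e he)

/-- **FIB (backward), one fibre.** -/
theorem isAlgEquivZero_fibre_of_pullbackAlong {T : Scheme.{u}}
    {t : T ⟶ Spec (CommRingCat.of k)} (M : RigidifiedLineBundle c ε t)
    (K : Type u) [Field K]
    (t' : Spec (CommRingCat.of K) ⟶ Spec (CommRingCat.of k)) (ψ : SchemeHomOver t' t)
    (h : IsAlgEquivZero (pullback.snd c t') (M.pullbackAlong ψ).L) :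
    IsAlgEquivZero (fibreAt c t ψ.1)
      ((Scheme.Modules.pullback (pullback.fst (pullback.snd c t) ψ.1)).obj M.L) := by
  have hcond : (pullback.fst (pullback.snd c t) ψ.1 ≫ pullback.fst c t) ≫ c =
      pullback.snd (pullback.snd c t) ψ.1 ≫ t' := by
    rw [Category.assoc, pullback.condition, ← Category.assoc, pullback.condition,
      Category.assoc, ψ.2]
  let e : pullback (pullback.snd c t) ψ.1 ⟶ pullback c t' :=
    pullback.lift (pullback.fst (pullback.snd c t) ψ.1 ≫ pullback.fst c t)
      (pullback.snd (pullback.snd c t) ψ.1) hcond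
  have he : e ≫ pullback.snd c t' = fibreAt c t ψ.1 := pullback.lift_snd _ _ _
  have hfst : e ≫ baseChangeSnd c ψ = pullback.fst (pullback.snd c t) ψ.1 := by
    apply pullback.hom_ext
    · simp only [baseChangeSnd, e, Category.assoc, pullback.lift_fst, pullback.lift_snd,
        pullback.lift_fst_assoc, pullback.lift_snd_assoc, Category.comp_id, Category.id_comp]
    · simp only [baseChangeSnd, e, Category.assoc, pullback.lift_fst, pullback.lift_snd,
        pullback.lift_fst_assoc, pullback.lift_snd_assoc, Category.comp_id, Category.id_comp]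
      exact pullback.condition.symm
  exact IsAlgEquivZero.of_iso (pullbackIsoOfFac _ _ _ hfst M.L) (h.pullback e he)

/-- **FIB, affine form.** Over an affine base `Spec A`, fibrewise algebraic equivalence to zero
can be tested on the pullbacks along `k`-algebra maps `A → K`, `K` algebraically closed. -/
theorem fibrewiseAlgEquivZero_affine_iff (A : Type u) [CommRing A] [Algebra k A]
    (M : RigidifiedLineBundle c ε (specStr k A)) :
    FibrewiseAlgEquivZero M ↔
      ∀ (K : Type u) [Field K] [IsAlgClosed K] [Algebra k K] (φ : A →ₐ[k] K),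
        IsAlgEquivZero (pullback.snd c (specStr k K)) (M.pullbackAlong (specHomOver k φ)).L := by
  constructor
  · intro hM K _ _ _ φ
    exact isAlgEquivZero_pullbackAlong_of_fibrewise M hM K _ _
  · intro h K _ _ s
    obtain ⟨f, rfl⟩ := Spec.map_surjective s
    let _ : Algebra k K := (f.hom.comp (algebraMap k A)).toAlgebra
    let φ : A →ₐ[k] K := { f.hom with commutes' := fun _ => rfl }
    have := isAlgEquivZero_fibre_of_pullbackAlong M K _ (specHomOver k φ) (h K φ)
    exact this

end

end Fermat.Agent.S25.H687
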