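/-
S25, block DICTDEG (helper687): scheme bookkeeping for `FamilyData`.
-/
import Fermat.Agent.S25.H687.DDFormal
import Fermat.Agent.S25.H687.DDDefs

set_option autoImplicit false
set_option linter.unusedSimpArgs false
universe u
open CategoryTheory CategoryTheory.Limits AlgebraicGeometry AlgebraicGeometry.RelPicard
  NeronModelInfra GoodReductionJacobian
open scoped TensorProduct

namespace Fermat.Agent.S25.H687

noncomputable section

variable {k : Type u} [Field k] {C : Scheme.{u}} {c : C ⟶ Spec (CommRingCat.of k)}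
  {ε : SchemeHomOver (𝟙 (Spec (CommRingCat.of k))) c}

/-! ### Part A: rigidified pullbacks of a family -/

/-- The pullback of an invertible module `N` on `C × T` along `S ⟶ T`, as a rigidified line
bundle, when the pullback of `N` to `S` along the marked section is trivial. -/
def rigidifiedOfPullback {T S : Scheme.{u}} {τ : T ⟶ Spec (CommRingCat.of k)}
    {s' : S ⟶ Spec (CommRingCat.of k)} (N : (pullback c τ).Modules)
    (hN : Scheme.Modules.IsInvertible N) (ψ : SchemeHomOver s' τ)
    (hrig : Nonempty ((Scheme.Modules.pullback ψ.1).obj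
      ((Scheme.Modules.pullback (rigSection c τ ε)).obj N) ≅
        SheafOfModules.unit S.ringCatSheaf)) :
    RigidifiedLineBundle c ε s' where
  L := (Scheme.Modules.pullback (baseChangeSnd c ψ)).obj N
  isInvertible := hN.pullback _
  rigidified := ⟨pullbackIsoOfSq _ _ _ _ (rigSection_baseChangeSnd c ε ψ) N ≪≫ hrig.some⟩

/-- Pulling back `rigidifiedOfPullback` further. -/
theorem rigidifiedOfPullback_pullbackAlong {T S S' : Scheme.{u}}
    {τ : T ⟶ Spec (CommRingCat.of k)} {s' : S ⟶ Spec (CommRingCat.of k)}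
    {s'' : S' ⟶ Spec (CommRingCat.of k)} (N : (pullback c τ).Modules)
    (hN : Scheme.Modules.IsInvertible N) (ψ : SchemeHomOver s' τ)
    (hrig : Nonempty ((Scheme.Modules.pullback ψ.1).obj
      ((Scheme.Modules.pullback (rigSection c τ ε)).obj N) ≅
        SheafOfModules.unit S.ringCatSheaf))
    (φ : SchemeHomOver s'' s') (ψ' : SchemeHomOver s'' τ) (hψ : φ.1 ≫ ψ.1 = ψ'.1) :
    Nonempty (((rigidifiedOfPullback (ε := ε) N hN ψ hrig).pullbackAlong φ).L ≅
      (Scheme.Modules.pullback (baseChangeSnd c ψ')).obj N) := by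
  have h1 : baseChangeSnd c φ ≫ baseChangeSnd c ψ = baseChangeSnd c ψ' := by
    rw [baseChangeSnd_comp]
    congr 1
    exact Subtype.ext hψ
  exact ⟨pullbackIsoOfFac _ _ _ h1 N⟩

/-! ### Part B: a family over `T' ⟶ Spec K` as a family over `T' ⟶ Spec k` -/

/-- The canonical map `C ×_k T' ⟶ C_S ×_S T'`. -/
def theta {K : Type u} [CommRing K] {T' : Scheme.{u}} (c : C ⟶ Spec (CommRingCat.of k))
    (σ : Spec (CommRingCat.of K) ⟶ Spec (CommRingCat.of k)) (h : T' ⟶ Spec (CommRingCat.of K)) :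
    pullback c (h ≫ σ) ⟶ pullback (pullback.snd c σ) h :=
  pullback.lift
    (pullback.lift (pullback.fst c (h ≫ σ)) (pullback.snd c (h ≫ σ) ≫ h)
      (by rw [pullback.condition, Category.assoc]))
    (pullback.snd c (h ≫ σ)) (pullback.lift_snd _ _ _)

/-- A section `t` of `h : T' ⟶ S`, as a morphism over `Spec k`. -/
def sectionOver {K : Type u} [CommRing K] {T' : Scheme.{u}} (σ : Spec (CommRingCat.of K) ⟶ Spec (CommRingCat.of k)) {h : T' ⟶ Spec (CommRingCat.of K)}
    (t : SchemeHomOver (𝟙 (Spec (CommRingCat.of K))) h) : SchemeHomOver σ (h ≫ σ) :=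
  ⟨t.1, by rw [← Category.assoc, t.2, Category.id_comp]⟩

/-- The inverse of the projection `C_S ×_S S ⟶ C_S`. -/
def idSection {K : Type u} [CommRing K] (c : C ⟶ Spec (CommRingCat.of k))
    (σ : Spec (CommRingCat.of K) ⟶ Spec (CommRingCat.of k)) :
    pullback c σ ⟶ pullback (pullback.snd c σ) (𝟙 (Spec (CommRingCat.of K))) :=
  pullback.lift (𝟙 _) (pullback.snd c σ) (by simp)

theorem idSection_fst {K : Type u} [CommRing K] (c : C ⟶ Spec (CommRingCat.of k))
    (σ : Spec (CommRingCat.of K) ⟶ Spec (CommRingCat.of k)) :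
    idSection c σ ≫ pullback.fst (pullback.snd c σ) (𝟙 (Spec (CommRingCat.of K))) = 𝟙 _ :=
  pullback.lift_fst _ _ _

theorem baseChangeSnd_sectionOver_theta {K : Type u} [CommRing K] {T' : Scheme.{u}}
    (σ : Spec (CommRingCat.of K) ⟶ Spec (CommRingCat.of k)) {h : T' ⟶ Spec (CommRingCat.of K)} (t : SchemeHomOver (𝟙 (Spec (CommRingCat.of K))) h) :
    baseChangeSnd c (sectionOver σ t) ≫ theta c σ h =
      idSection c σ ≫ baseChangeSnd (pullback.snd c σ) t := by
  apply pullback.hom_ext
  · apply pullback.hom_ext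
    · simp only [baseChangeSnd, theta, idSection, sectionOver, Category.assoc, pullback.lift_fst,
        pullback.lift_snd, pullback.lift_fst_assoc, pullback.lift_snd_assoc, Category.comp_id,
        Category.id_comp]
    · simp only [baseChangeSnd, theta, idSection, sectionOver, Category.assoc, pullback.lift_fst,
        pullback.lift_snd, pullback.lift_fst_assoc, pullback.lift_snd_assoc, Category.comp_id,
        Category.id_comp]
      rw [t.2, Category.comp_id]
  · simp only [baseChangeSnd, theta, idSection, sectionOver, Category.assoc, pullback.lift_fst,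
      pullback.lift_snd, pullback.lift_fst_assoc, pullback.lift_snd_assoc, Category.comp_id,
      Category.id_comp]

/-- The fibre at a section `t` of the family `theta^* N`. -/
def fibreIso {K : Type u} [CommRing K] {T' : Scheme.{u}} (σ : Spec (CommRingCat.of K) ⟶ Spec (CommRingCat.of k)) {h : T' ⟶ Spec (CommRingCat.of K)}
    (N : (pullback (pullback.snd c σ) h).Modules) (t : SchemeHomOver (𝟙 (Spec (CommRingCat.of K))) h) :
    (Scheme.Modules.pullback (baseChangeSnd c (sectionOver σ t))).obj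
        ((Scheme.Modules.pullback (theta c σ h)).obj N) ≅
      (Scheme.Modules.pullback (idSection c σ)).obj
        ((Scheme.Modules.pullback (baseChangeSnd (pullback.snd c σ) t)).obj N) :=
  pullbackIsoOfSq _ _ _ _ (baseChangeSnd_sectionOver_theta σ t) N

/-- If the fibre of `N` at `t` is `fst^* L`, then the fibre of `theta^* N` is `L`. -/
def fibreIsoOfIso {K : Type u} [CommRing K] {T' : Scheme.{u}} (σ : Spec (CommRingCat.of K) ⟶ Spec (CommRingCat.of k)) {h : T' ⟶ Spec (CommRingCat.of K)}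
    (N : (pullback (pullback.snd c σ) h).Modules) (t : SchemeHomOver (𝟙 (Spec (CommRingCat.of K))) h)
    (L : (pullback c σ).Modules)
    (e : (Scheme.Modules.pullback (baseChangeSnd (pullback.snd c σ) t)).obj N ≅
      (Scheme.Modules.pullback (pullback.fst (pullback.snd c σ) (𝟙 (Spec (CommRingCat.of K))))).obj L) :
    (Scheme.Modules.pullback (baseChangeSnd c (sectionOver σ t))).obj
        ((Scheme.Modules.pullback (theta c σ h)).obj N) ≅ L :=
  fibreIso σ N t ≪≫ (Scheme.Modules.pullback (idSection c σ)).mapIso e ≪≫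
    pullbackIsoOfFac _ _ _ (idSection_fst c σ) L ≪≫ (Scheme.Modules.pullbackId _).app L

/-- If the fibre of `N` at `t` is trivial, then so is the fibre of `theta^* N`. -/
def fibreIsoOfUnit {K : Type u} [CommRing K] {T' : Scheme.{u}} (σ : Spec (CommRingCat.of K) ⟶ Spec (CommRingCat.of k)) {h : T' ⟶ Spec (CommRingCat.of K)}
    (N : (pullback (pullback.snd c σ) h).Modules) (t : SchemeHomOver (𝟙 (Spec (CommRingCat.of K))) h)
    (e : (Scheme.Modules.pullback (baseChangeSnd (pullback.snd c σ) t)).obj N ≅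
      SheafOfModules.unit (pullback (pullback.snd c σ) (𝟙 (Spec (CommRingCat.of K)))).ringCatSheaf) :
    (Scheme.Modules.pullback (baseChangeSnd c (sectionOver σ t))).obj
        ((Scheme.Modules.pullback (theta c σ h)).obj N) ≅
      SheafOfModules.unit (pullback c σ).ringCatSheaf :=
  fibreIso σ N t ≪≫ (Scheme.Modules.pullback (idSection c σ)).mapIso e ≪≫
    Scheme.Modules.pullbackUnitIso _

/-! ### Part D: trivialising affine opens -/

/-- An invertible module is trivial after pullback along any morphism factoring through a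
trivialising open. -/
theorem nonempty_pullback_iso_unit_of_fac {T S : Scheme.{u}} (E : T.Modules) (U : T.Opens)
    (hU : Nonempty ((Scheme.Modules.pullback U.ι).obj E ≅
      SheafOfModules.unit U.toScheme.ringCatSheaf))
    (j : S ⟶ T) (g : S ⟶ U.toScheme) (hg : g ≫ U.ι = j) :
    Nonempty ((Scheme.Modules.pullback j).obj E ≅ SheafOfModules.unit S.ringCatSheaf) := by
  obtain ⟨e⟩ := hU
  exact ⟨(pullbackIsoOfFac g U.ι j hg E).symm ≪≫ (Scheme.Modules.pullback g).mapIso e ≪≫
    Scheme.Modules.pullbackUnitIso g⟩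

/-- Around every point there is an affine open `W` such that the invertible module `E` becomes
trivial on `Spec Γ(T, W)`. -/
theorem exists_isAffineOpen_trivial {T : Scheme.{u}} (E : T.Modules)
    (hE : Scheme.Modules.IsInvertible E) (x : T) :
    ∃ (W : T.Opens) (hW : IsAffineOpen W), x ∈ W ∧
      Nonempty ((Scheme.Modules.pullback hW.fromSpec).obj E ≅
        SheafOfModules.unit (Spec Γ(T, W)).ringCatSheaf) := by
  obtain ⟨U, hxU, hU⟩ := hE.exists_trivialization x
  obtain ⟨_, ⟨W, hW', rfl⟩, hxW, hWU'⟩ :=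
    T.isBasis_affineOpens.exists_subset_of_mem_open hxU U.isOpen
  have hW : IsAffineOpen W := hW'
  have hWU : W ≤ U := hWU'
  refine ⟨W, hW, hxW, ?_⟩
  refine nonempty_pullback_iso_unit_of_fac E U hU hW.fromSpec
    (hW.isoSpec.inv ≫ T.homOfLE hWU) ?_
  rw [Category.assoc, Scheme.homOfLE_ι, IsAffineOpen.isoSpec_inv_ι]

/-! ### Part E: `k`-algebra structures -/

/-- A ring homomorphism between `k`-algebras which is compatible with the structure morphisms
of the spectra is a `k`-algebra homomorphism. -/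
theorem commutes_of_spec {A R : Type u} [CommRing A] [CommRing R] [Algebra k A] [Algebra k R]
    (α : A →+* R)
    (h : Spec.map (CommRingCat.ofHom α) ≫ specStr k A = specStr k R) (r : k) :
    α (algebraMap k A r) = algebraMap k R r := by
  have h1 : Spec.map (CommRingCat.ofHom (algebraMap k A) ≫ CommRingCat.ofHom α) =
      Spec.map (CommRingCat.ofHom (algebraMap k R)) := by
    rw [Spec.map_comp]
    exact h
  have h2 := Spec.map_injective h1
  have h3 := congrArg (fun f => f.hom r) h2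
  simpa using h3

/-! ### Part F: assembly -/

theorem genericPoint_mem_of_nonempty' {T : Scheme.{u}} [IsIntegral T] (U : T.Opens)
    (h : Nonempty U) : genericPoint T ∈ U :=
  ((genericPoint_spec T).mem_open_set_iff U.isOpen).mpr (by simpa using h)

/-- **FAMILY-DATA.** -/
theorem familyData (c : C ⟶ Spec (CommRingCat.of k))
    (ε : SchemeHomOver (𝟙 (Spec (CommRingCat.of k))) c) : FamilyData c ε := by
  intro K _ _ _ L hL
  obtain ⟨T', h, hft, hgi, N, hN, t₀, t₁, ⟨e₀⟩, ⟨e₁⟩⟩ := hL
  have hint : IsIntegral T' := GeometricallyIntegral.isIntegral_of_subsingleton h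
  let σ : Spec (CommRingCat.of K) ⟶ Spec (CommRingCat.of k) := specStr k K
  let τ : T' ⟶ Spec (CommRingCat.of k) := h ≫ σ
  let N' : (pullback c τ).Modules := (Scheme.Modules.pullback (theta c σ h)).obj N
  have hN' : Scheme.Modules.IsInvertible N' := hN.pullback _
  let E : T'.Modules := (Scheme.Modules.pullback (rigSection c τ ε)).obj N'
  have hE : Scheme.Modules.IsInvertible E := hN'.pullback _
  -- the two points and their affine neighbourhoods
  let x₀ : T' := t₀.1 (IsLocalRing.closedPoint K)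
  let x₁ : T' := t₁.1 (IsLocalRing.closedPoint K)
  obtain ⟨W₀, hW₀, hx₀, hrig₀⟩ := exists_isAffineOpen_trivial E hE x₀
  obtain ⟨W₁, hW₁, hx₁, hrig₁⟩ := exists_isAffineOpen_trivial E hE x₁
  have hne₀ : Nonempty W₀ := ⟨⟨x₀, hx₀⟩⟩
  have hne₁ : Nonempty W₁ := ⟨⟨x₁, hx₁⟩⟩
  -- ring homomorphisms out of the rings of sections
  let α₀ : Γ(T', W₀) ⟶ CommRingCat.of K :=
    T'.presheaf.germ W₀ x₀ hx₀ ≫ Scheme.stalkClosedPointTo t₀.1
  let α₁ : Γ(T', W₁) ⟶ CommRingCat.of K :=
    T'.presheaf.germ W₁ x₁ hx₁ ≫ Scheme.stalkClosedPointTo t₁.1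
  let β₀ : Γ(T', W₀) ⟶ T'.functionField := T'.germToFunctionField W₀
  let β₁ : Γ(T', W₁) ⟶ T'.functionField := T'.germToFunctionField W₁
  let ηmap : Spec T'.functionField ⟶ T' := T'.fromSpecStalk (genericPoint T')
  have hα₀ : Spec.map α₀ ≫ hW₀.fromSpec = t₀.1 := by
    rw [Spec.map_comp, Category.assoc]
    have := hW₀.fromSpecStalk_eq_fromSpecStalk hx₀
    rw [IsAffineOpen.fromSpecStalk] at this
    rw [this]
    exact Scheme.Spec_stalkClosedPointTo_fromSpecStalk t₀.1
  have hα₁ : Spec.map α₁ ≫ hW₁.fromSpec = t₁.1 := by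
    rw [Spec.map_comp, Category.assoc]
    have := hW₁.fromSpecStalk_eq_fromSpecStalk hx₁
    rw [IsAffineOpen.fromSpecStalk] at this
    rw [this]
    exact Scheme.Spec_stalkClosedPointTo_fromSpecStalk t₁.1
  have hβ₀ : Spec.map β₀ ≫ hW₀.fromSpec = ηmap :=
    hW₀.fromSpecStalk_eq_fromSpecStalk (genericPoint_mem_of_nonempty' W₀ hne₀)
  have hβ₁ : Spec.map β₁ ≫ hW₁.fromSpec = ηmap :=
    hW₁.fromSpecStalk_eq_fromSpecStalk (genericPoint_mem_of_nonempty' W₁ hne₁)
  -- `k`-algebra structures
  let algA₀ : Algebra k Γ(T', W₀) := (Spec.preimage (hW₀.fromSpec ≫ τ)).hom.toAlgebra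
  let algA₁ : Algebra k Γ(T', W₁) := (Spec.preimage (hW₁.fromSpec ≫ τ)).hom.toAlgebra
  let algF : Algebra k T'.functionField := (Spec.preimage (ηmap ≫ τ)).hom.toAlgebra
  have hstr₀ : hW₀.fromSpec ≫ τ = specStr k Γ(T', W₀) := (Spec.map_preimage _).symm
  have hstr₁ : hW₁.fromSpec ≫ τ = specStr k Γ(T', W₁) := (Spec.map_preimage _).symm
  have hstrF : ηmap ≫ τ = specStr k T'.functionField := (Spec.map_preimage _).symm
  have hstrK₀ : t₀.1 ≫ τ = specStr k K := by
    rw [← Category.assoc, t₀.2, Category.id_comp]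
  have hstrK₁ : t₁.1 ≫ τ = specStr k K := by
    rw [← Category.assoc, t₁.2, Category.id_comp]
  -- the algebra homomorphisms
  let a₀ : Γ(T', W₀) →ₐ[k] K :=
    { α₀.hom with
      commutes' := commutes_of_spec α₀.hom (by
        rw [← hstr₀, ← hstrK₀, ← hα₀, Category.assoc]; rfl) }
  let a₁ : Γ(T', W₁) →ₐ[k] K :=
    { α₁.hom with
      commutes' := commutes_of_spec α₁.hom (by
        rw [← hstr₁, ← hstrK₁, ← hα₁, Category.assoc]; rfl) }
  let b₀ : Γ(T', W₀) →ₐ[k] T'.functionField :=
    { β₀.hom with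
      commutes' := commutes_of_spec β₀.hom (by
        rw [← hstr₀, ← hstrF, ← hβ₀, Category.assoc]; rfl) }
  let b₁ : Γ(T', W₁) →ₐ[k] T'.functionField :=
    { β₁.hom with
      commutes' := commutes_of_spec β₁.hom (by
        rw [← hstr₁, ← hstrF, ← hβ₁, Category.assoc]; rfl) }
  -- the rigidified families
  let ψ₀ : SchemeHomOver (specStr k Γ(T', W₀)) τ := ⟨hW₀.fromSpec, hstr₀⟩
  let ψ₁ : SchemeHomOver (specStr k Γ(T', W₁)) τ := ⟨hW₁.fromSpec, hstr₁⟩
  let N₀ : RigidifiedLineBundle c ε (specStr k Γ(T', W₀)) :=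
    rigidifiedOfPullback N' hN' ψ₀ hrig₀
  let N₁ : RigidifiedLineBundle c ε (specStr k Γ(T', W₁)) :=
    rigidifiedOfPullback N' hN' ψ₁ hrig₁
  let η' : SchemeHomOver (specStr k T'.functionField) τ := ⟨ηmap, hstrF⟩
  refine ⟨Γ(T', W₀), Γ(T', W₁), T'.functionField, inferInstance, inferInstance, inferInstance,
    inferInstance, inferInstance, algA₀, algA₁, algF, N₀, N₁, a₀, a₁, b₀, b₁, ?_, ?_, ?_⟩
  · obtain ⟨i⟩ := rigidifiedOfPullback_pullbackAlong (ε := ε) N' hN' ψ₀ hrig₀
      (specHomOver k a₀) (sectionOver σ t₀) hα₀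
    exact ⟨i ≪≫ fibreIsoOfUnit σ N t₀ e₀⟩
  · obtain ⟨i⟩ := rigidifiedOfPullback_pullbackAlong (ε := ε) N' hN' ψ₁ hrig₁
      (specHomOver k a₁) (sectionOver σ t₁) hα₁
    exact ⟨i ≪≫ fibreIsoOfIso σ N t₁ L.L e₁⟩
  · obtain ⟨i⟩ := rigidifiedOfPullback_pullbackAlong (ε := ε) N' hN' ψ₀ hrig₀
      (specHomOver k b₀) η' hβ₀
    obtain ⟨j⟩ := rigidifiedOfPullback_pullbackAlong (ε := ε) N' hN' ψ₁ hrig₁
      (specHomOver k b₁) η' hβ₁
    exact ⟨i ≪≫ j.symm⟩

end

end Fermat.Agent.S25.H687
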