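/-
S25, block DICTDEG (helper687): assembly of `Stmt.DictDeg Ch` and of `Stmt.Abel c ε` from the
interface statements of `DDDefs.lean` (all hypotheses are explicit; nothing is assumed).
-/
import Fermat.Agent.S25.H687.DDFormal
import Fermat.Agent.S25.H687.DDDefs

set_option autoImplicit false
universe u
open CategoryTheory CategoryTheory.Limits AlgebraicGeometry AlgebraicGeometry.RelPicard
  NeronModelInfra GoodReductionJacobian
open scoped TensorProduct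

namespace Fermat.Agent.S25.H687

variable {k : Type u} [Field k] {C : Scheme.{u}} {c : C ⟶ Spec (CommRingCat.of k)}
  {ε : SchemeHomOver (𝟙 (Spec (CommRingCat.of k))) c}

/-- The Abel family of `AbelAlg` is fibrewise algebraically equivalent to zero (by FAM). -/
theorem isAlgEquivZero_of_degree_eq_zero (Ch : ChartOf c ε) (hAbel : AbelAlg Ch)
    (K : Type u) [Field K] [IsAlgClosed K] [Algebra k K]
    (L : RigidifiedLineBundle c ε (specStr k K)) (G : CurveGD k Ch.B₀ Ch.B₁ Ch.B₀₁ K)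
    (hG : Corr Ch K L.L G) (hdeg : G.degree = 0) :
    IsAlgEquivZero (pullback.snd c (specStr k K)) L.L := by
  obtain ⟨X, x, hx, hgi, M, x₀, h₀, hsurj⟩ := hAbel
  have hM : FibrewiseAlgEquivZero M := fibrewiseAlgEquivZero_of_trivial_fibre x M x₀ h₀
  obtain ⟨p, ⟨e⟩⟩ := hsurj K L G hG hdeg
  exact (isAlgEquivZero_pullbackAlong_of_fibrewise M hM K _ p).of_iso e

/-- **DICTDEG, direction (⇐)**: fibrewise degree zero implies fibrewise algebraically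
equivalent to zero. -/
theorem fibrewiseAlgEquivZero_of_deg0 (Ch : ChartOf c ε) (hAbel : AbelAlg Ch)
    (hBC : Stmt.DictBC Ch) (hEx : Stmt.AlgBCExists Ch)
    (A : Type u) [CommRing A] [Algebra k A] (M : RigidifiedLineBundle c ε (specStr k A))
    (G : CurveGD k Ch.B₀ Ch.B₁ Ch.B₀₁ A) (hG : Corr Ch A M.L G) (hdeg : G.Deg0) :
    FibrewiseAlgEquivZero M := by
  rw [fibrewiseAlgEquivZero_affine_iff]
  intro K _ _ _ φ
  obtain ⟨G', hG'⟩ := hEx A K φ G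
  exact isAlgEquivZero_of_degree_eq_zero Ch hAbel K _ G' (hBC A K φ M G G' hG hG')
    (hdeg K φ G' hG')

/-- Core of direction (⇒): over an algebraically closed field, a line bundle algebraically
equivalent to zero has degree zero. -/
theorem degree_eq_zero_of_isAlgEquivZero (Ch : ChartOf c ε)
    (hSec : Stmt.DictSections Ch) (hIso : Stmt.DictIso Ch) (hBC : Stmt.DictBC Ch)
    (hEx : Stmt.AlgBCExists Ch) (hUnit : DictUnit Ch)
    (hDegIso : DegIso k Ch.B₀ Ch.B₁ Ch.B₀₁) (hDegConst : DegConst k Ch.B₀ Ch.B₁ Ch.B₀₁)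
    (hFam : FamilyData c ε)
    (K : Type u) [Field K] [IsAlgClosed K] [Algebra k K]
    (L : RigidifiedLineBundle c ε (specStr k K)) (G : CurveGD k Ch.B₀ Ch.B₁ Ch.B₀₁ K)
    (hG : Corr Ch K L.L G) (hL : IsAlgEquivZero (pullback.snd c (specStr k K)) L.L) :
    G.degree = 0 := by
  obtain ⟨A₀, A₁, F, _, _, _, _, _, _, _, _, N₀, N₁, a₀, a₁, b₀, b₁, h0, h1, hF⟩ := hFam K L hL
  -- gluing data of the two families
  obtain ⟨H₀, hH₀, -⟩ := hSec A₀ N₀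
  obtain ⟨H₁, hH₁, -⟩ := hSec A₁ N₁
  -- their fibres
  obtain ⟨H₀a, hH₀a⟩ := hEx A₀ K a₀ H₀
  obtain ⟨H₁a, hH₁a⟩ := hEx A₁ K a₁ H₁
  obtain ⟨H₀b, hH₀b⟩ := hEx A₀ F b₀ H₀
  obtain ⟨H₁b, hH₁b⟩ := hEx A₁ F b₁ H₁
  have c0a := hBC A₀ K a₀ N₀ H₀ H₀a hH₀ hH₀a
  have c1a := hBC A₁ K a₁ N₁ H₁ H₁a hH₁ hH₁a
  have c0b := hBC A₀ F b₀ N₀ H₀ H₀b hH₀ hH₀b
  have c1b := hBC A₁ F b₁ N₁ H₁ H₁b hH₁ hH₁b
  -- fibre of `N₁` at `a₁` is `L`
  have e1 : H₁a.IsIso G := (hIso K _ L H₁a G c1a hG).1 h1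
  -- fibre of `N₀` at `a₀` is trivial
  have e0 : H₀a.IsIso (GlueDatum.unit K (K ⊗[k] Ch.B₀) (K ⊗[k] Ch.B₁) (K ⊗[k] Ch.B₀₁)) :=
    (hIso K _ (RigidifiedLineBundle.unit (specStr k K)) H₀a _ c0a (hUnit K)).1 h0
  -- generic fibres agree
  have eF : H₀b.IsIso H₁b := (hIso F _ _ H₀b H₁b c0b c1b).1 hF
  have d1 : H₁a.degree = H₁b.degree :=
    hDegConst Ch.x Ch.y Ch.e Ch.isCurveChart A₁ H₁ K F a₁ b₁ H₁a H₁b hH₁a hH₁b
  have d0 : H₀a.degree = H₀b.degree :=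
    hDegConst Ch.x Ch.y Ch.e Ch.isCurveChart A₀ H₀ K F a₀ b₀ H₀a H₀b hH₀a hH₀b
  have du : (GlueDatum.unit K (K ⊗[k] Ch.B₀) (K ⊗[k] Ch.B₁) (K ⊗[k] Ch.B₀₁)).degree = 0 := by
    simp [GlueDatum.degree]
  calc G.degree = H₁a.degree := (hDegIso K H₁a G e1).symm
    _ = H₁b.degree := d1
    _ = H₀b.degree := (hDegIso F H₀b H₁b eF).symm
    _ = H₀a.degree := d0.symm
    _ = _ := hDegIso K H₀a _ e0
    _ = 0 := du

/-- **DICTDEG, direction (⇒)**: fibrewise algebraically equivalent to zero implies fibrewise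
degree zero. -/
theorem deg0_of_fibrewiseAlgEquivZero (Ch : ChartOf c ε)
    (hSec : Stmt.DictSections Ch) (hIso : Stmt.DictIso Ch) (hBC : Stmt.DictBC Ch)
    (hEx : Stmt.AlgBCExists Ch) (hUnit : DictUnit Ch)
    (hId : BCId k Ch.B₀ Ch.B₁ Ch.B₀₁) (hComp : BCComp k Ch.B₀ Ch.B₁ Ch.B₀₁)
    (hDegIso : DegIso k Ch.B₀ Ch.B₁ Ch.B₀₁) (hDegConst : DegConst k Ch.B₀ Ch.B₁ Ch.B₀₁)
    (hFam : FamilyData c ε)
    (A : Type u) [CommRing A] [Algebra k A] (M : RigidifiedLineBundle c ε (specStr k A))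
    (G : CurveGD k Ch.B₀ Ch.B₁ Ch.B₀₁ A) (hG : Corr Ch A M.L G)
    (hM : FibrewiseAlgEquivZero M) : G.Deg0 := by
  intro K _ _ φ G' hG'
  -- pass to the algebraic closure
  let Kbar := AlgebraicClosure K
  let ι : K →ₐ[k] Kbar := IsScalarTower.toAlgHom k K Kbar
  obtain ⟨G'', hG''⟩ := hEx K Kbar ι G'
  have hcomp : CurveGD.IsBC (ι.comp φ) G G'' := hComp A K Kbar φ ι G G' G'' hG' hG''
  have hcorr := hBC A Kbar (ι.comp φ) M G G'' hG hcomp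
  have hz := isAlgEquivZero_pullbackAlong_of_fibrewise M hM Kbar _ (specHomOver k (ι.comp φ))
  have h0 : G''.degree = 0 :=
    degree_eq_zero_of_isAlgEquivZero Ch hSec hIso hBC hEx hUnit hDegIso hDegConst hFam Kbar
      _ G'' hcorr hz
  have h1 : G'.degree = G''.degree :=
    hDegConst Ch.x Ch.y Ch.e Ch.isCurveChart K G' K Kbar (AlgHom.id k K) ι G' G''
      (hId K G') hG''
  rw [h1, h0]

/-- **DICTDEG.** -/
theorem dictDeg (Ch : ChartOf c ε)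
    (hSec : Stmt.DictSections Ch) (hIso : Stmt.DictIso Ch) (hBC : Stmt.DictBC Ch)
    (hEx : Stmt.AlgBCExists Ch) (hUnit : DictUnit Ch)
    (hId : BCId k Ch.B₀ Ch.B₁ Ch.B₀₁) (hComp : BCComp k Ch.B₀ Ch.B₁ Ch.B₀₁)
    (hDegIso : DegIso k Ch.B₀ Ch.B₁ Ch.B₀₁) (hDegConst : DegConst k Ch.B₀ Ch.B₁ Ch.B₀₁)
    (hFam : FamilyData c ε) (hAbel : AbelAlg Ch) : Stmt.DictDeg Ch := by
  intro A _ _ M G hG
  exact ⟨deg0_of_fibrewiseAlgEquivZero Ch hSec hIso hBC hEx hUnit hId hComp hDegIso hDegConst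
    hFam A M G hG, fibrewiseAlgEquivZero_of_deg0 Ch hAbel hBC hEx A M G hG⟩

/-- **ABEL** from its algebraic form. -/
theorem abel_of_abelAlg (Ch : ChartOf c ε)
    (hSec : Stmt.DictSections Ch) (hId : BCId k Ch.B₀ Ch.B₁ Ch.B₀₁)
    (hDeg : Stmt.DictDeg Ch) (hAbel : AbelAlg Ch) : Stmt.Abel c ε := by
  obtain ⟨X, x, hx, hgi, M, x₀, h₀, hsurj⟩ := hAbel
  refine ⟨X, x, hx, hgi, M, fibrewiseAlgEquivZero_of_trivial_fibre x M x₀ h₀, ?_⟩
  intro K _ _ _ L hL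
  obtain ⟨G, hG, -⟩ := hSec K L
  have hdeg : G.Deg0 := (hDeg K L G hG).1 hL
  exact hsurj K L G hG (hdeg K (AlgHom.id k K) G (hId K G))

end Fermat.Agent.S25.H687
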