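/-
S25, block DICTDEG (helper687): final form.  `Stmt.DictDeg Ch` from the dictionary, the GDC /
DEGREE facts and the algebraic Abel family; the scheme bookkeeping `FamilyData` is discharged.
-/
import Fermat.Agent.S25.H687.DDMain
import Fermat.Agent.S25.H687.DDFamily

set_option autoImplicit false
universe u
open CategoryTheory CategoryTheory.Limits AlgebraicGeometry AlgebraicGeometry.RelPicard
  NeronModelInfra GoodReductionJacobian
open scoped TensorProduct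

namespace Fermat.Agent.S25.H687

variable {k : Type u} [Field k] {C : Scheme.{u}} {c : C ⟶ Spec (CommRingCat.of k)}
  {ε : SchemeHomOver (𝟙 (Spec (CommRingCat.of k))) c}

/-- **DICTDEG**, direction (⇒) alone (no Abel family needed). -/
theorem dictDeg_mp (Ch : ChartOf c ε)
    (hSec : Stmt.DictSections Ch) (hIso : Stmt.DictIso Ch) (hBC : Stmt.DictBC Ch)
    (hEx : Stmt.AlgBCExists Ch) (hUnit : DictUnit Ch)
    (hId : BCId k Ch.B₀ Ch.B₁ Ch.B₀₁) (hComp : BCComp k Ch.B₀ Ch.B₁ Ch.B₀₁)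
    (hDegIso : DegIso k Ch.B₀ Ch.B₁ Ch.B₀₁) (hDegConst : DegConst k Ch.B₀ Ch.B₁ Ch.B₀₁)
    (A : Type u) [CommRing A] [Algebra k A] (M : RigidifiedLineBundle c ε (specStr k A))
    (G : CurveGD k Ch.B₀ Ch.B₁ Ch.B₀₁ A) (hG : Corr Ch A M.L G)
    (hM : FibrewiseAlgEquivZero M) : G.Deg0 :=
  deg0_of_fibrewiseAlgEquivZero Ch hSec hIso hBC hEx hUnit hId hComp hDegIso hDegConst
    (familyData c ε) A M G hG hM

/-- **DICTDEG.** -/
theorem dictDeg_final (Ch : ChartOf c ε)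
    (hSec : Stmt.DictSections Ch) (hIso : Stmt.DictIso Ch) (hBC : Stmt.DictBC Ch)
    (hEx : Stmt.AlgBCExists Ch) (hUnit : DictUnit Ch)
    (hId : BCId k Ch.B₀ Ch.B₁ Ch.B₀₁) (hComp : BCComp k Ch.B₀ Ch.B₁ Ch.B₀₁)
    (hDegIso : DegIso k Ch.B₀ Ch.B₁ Ch.B₀₁) (hDegConst : DegConst k Ch.B₀ Ch.B₁ Ch.B₀₁)
    (hAbel : AbelAlg Ch) : Stmt.DictDeg Ch :=
  dictDeg Ch hSec hIso hBC hEx hUnit hId hComp hDegIso hDegConst (familyData c ε) hAbel

/-- **ABEL** from its algebraic form (with `DictDeg` discharged). -/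
theorem abel_final (Ch : ChartOf c ε)
    (hSec : Stmt.DictSections Ch) (hIso : Stmt.DictIso Ch) (hBC : Stmt.DictBC Ch)
    (hEx : Stmt.AlgBCExists Ch) (hUnit : DictUnit Ch)
    (hId : BCId k Ch.B₀ Ch.B₁ Ch.B₀₁) (hComp : BCComp k Ch.B₀ Ch.B₁ Ch.B₀₁)
    (hDegIso : DegIso k Ch.B₀ Ch.B₁ Ch.B₀₁) (hDegConst : DegConst k Ch.B₀ Ch.B₁ Ch.B₀₁)
    (hAbel : AbelAlg Ch) : Stmt.Abel c ε :=
  abel_of_abelAlg Ch hSec hId
    (dictDeg_final Ch hSec hIso hBC hEx hUnit hId hComp hDegIso hDegConst hAbel) hAbel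

end Fermat.Agent.S25.H687
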