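/-
S25, block CURVE, leaf C3-ALGEBRA, helper687.  Pure commutative algebra, Mathlib only.

* `exists_algHom_apply_ne_zero` : weak Nullstellensatz with a nonvanishing condition.
* `infinite_algHom` : a f.g. domain over an algebraically closed field which is not a field
  has infinitely many `k`-points.
* `finite_zeros_of_section` : a nonzero element of a f.g. projective module over a Dedekind
  domain lies in `m • ⊤` for only finitely many maximal ideals `m`.
-/
import Mathlib

namespace Fermat.Agent.S25.H687

section Nullstellensatz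

variable (k : Type*) {B : Type*} [Field k] [IsAlgClosed k] [CommRing B] [Algebra k B]
  [Algebra.FiniteType k B]

/-- Every maximal ideal of a f.g. algebra over an algebraically closed field is the kernel of
a `k`-point. -/
theorem exists_algHom_ker_eq (m : Ideal B) [hm : m.IsMaximal] :
    ∃ φ : B →ₐ[k] k, RingHom.ker φ.toRingHom = m := by
  classical
  let _ : Field (B ⧸ m) := Ideal.Quotient.field m
  have : Module.Finite k (B ⧸ m) := finite_of_finite_type_of_isJacobsonRing k (B ⧸ m)
  have : Algebra.IsIntegral k (B ⧸ m) := Algebra.IsIntegral.of_finite k (B ⧸ m)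
  have hbij : Function.Bijective (algebraMap k (B ⧸ m)) :=
    IsAlgClosed.algebraMap_bijective_of_isIntegral
  let e : k ≃ₐ[k] (B ⧸ m) := AlgEquiv.ofBijective (Algebra.ofId k (B ⧸ m)) hbij
  refine ⟨(e.symm : (B ⧸ m) →ₐ[k] k).comp (Ideal.Quotient.mkₐ k m), ?_⟩
  ext b
  simp only [RingHom.mem_ker, AlgHom.toRingHom_eq_coe, RingHom.coe_coe, AlgHom.coe_comp,
    Function.comp_apply, Ideal.Quotient.mkₐ_eq_mk]
  rw [← Ideal.Quotient.eq_zero_iff_mem]
  exact map_eq_zero_iff _ e.symm.injective

/-- Weak Nullstellensatz: a non-nilpotent element of a f.g. algebra over an algebraically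
closed field is nonzero at some `k`-point. -/
theorem exists_algHom_apply_ne_zero {b : B} (hb : ¬ IsNilpotent b) :
    ∃ φ : B →ₐ[k] k, φ b ≠ 0 := by
  classical
  have : Nontrivial (Localization.Away b) := by
    rw [← not_subsingleton_iff_nontrivial]
    intro h
    apply hb
    have h0 : (algebraMap B (Localization.Away b)) b = 0 := Subsingleton.elim _ _
    have hunit : IsUnit ((algebraMap B (Localization.Away b)) b) :=
      IsLocalization.Away.algebraMap_isUnit b
    rw [h0] at hunit
    have h1 : (1 : Localization.Away b) = 0 := Subsingleton.elim _ _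
    have : (algebraMap B (Localization.Away b)) 1 = 0 := by rw [map_one]; exact h1
    obtain ⟨⟨_, n, rfl⟩, hn⟩ :=
      (IsLocalization.map_eq_zero_iff (Submonoid.powers b) (Localization.Away b) 1).mp this
    exact ⟨n, by simpa using hn⟩
  have hBL : Algebra.FiniteType B (Localization.Away b) :=
    IsLocalization.finiteType_of_monoid_fg (Submonoid.powers b) _
  have : Algebra.FiniteType k (Localization.Away b) :=
    Algebra.FiniteType.trans (S := B) inferInstance hBL
  obtain ⟨M, hM⟩ := Ideal.exists_maximal (Localization.Away b)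
  obtain ⟨ψ, hψ⟩ := exists_algHom_ker_eq k M
  refine ⟨ψ.comp (IsScalarTower.toAlgHom k B (Localization.Away b)), ?_⟩
  have hunit : IsUnit ((algebraMap B (Localization.Away b)) b) :=
    IsLocalization.Away.algebraMap_isUnit b
  have : IsUnit (ψ ((algebraMap B (Localization.Away b)) b)) := hunit.map ψ
  simpa using this.ne_zero

end Nullstellensatz

section Infinite

variable (k : Type*) {B : Type*} [Field k] [IsAlgClosed k] [CommRing B] [IsDomain B]
  [Algebra k B] [Algebra.FiniteType k B]

/-- For finitely many `k`-points of a f.g. domain which is not a field there is another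
`k`-point (in fact one at which a given nonzero `b` does not vanish). -/
theorem exists_algHom_notMem_finset (hB : ¬ IsField B) (s : Finset (B →ₐ[k] k)) {b : B}
    (hb : b ≠ 0) : ∃ φ : B →ₐ[k] k, φ ∉ s ∧ φ b ≠ 0 := by
  classical
  -- every `k`-point kills a nonzero element
  have hker : ∀ φ : B →ₐ[k] k, ∃ c : B, c ≠ 0 ∧ φ c = 0 := by
    intro φ
    by_contra hcon
    push Not at hcon
    apply hB
    have hinj : Function.Injective φ := by
      rw [injective_iff_map_eq_zero]
      intro c hc
      by_contra hc0
      exact hcon c hc0 hc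
    have hsurj : Function.Surjective φ := fun a => ⟨algebraMap k B a, by simp⟩
    exact (MulEquiv.ofBijective φ ⟨hinj, hsurj⟩).isField (Field.toIsField k)
  choose c hc0 hc using hker
  have hprod : b * ∏ φ ∈ s, c φ ≠ 0 :=
    mul_ne_zero hb (Finset.prod_ne_zero_iff.mpr fun φ _ => hc0 φ)
  obtain ⟨φ, hφ⟩ := exists_algHom_apply_ne_zero k (B := B)
    (fun h => hprod (IsNilpotent.eq_zero h))
  refine ⟨φ, ?_, ?_⟩
  · intro hmem
    apply hφ
    rw [map_mul, map_prod, Finset.prod_eq_zero hmem (hc φ), mul_zero]
  · intro h0
    apply hφ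
    rw [map_mul, h0, zero_mul]

/-- A f.g. domain over an algebraically closed field which is not a field has infinitely many
`k`-points. -/
theorem infinite_algHom (hB : ¬ IsField B) : Infinite (B →ₐ[k] k) := by
  classical
  refine Infinite.of_not_fintype fun hfin => ?_
  obtain ⟨φ, hφ, -⟩ := exists_algHom_notMem_finset k hB (Finset.univ) (one_ne_zero (α := B))
  exact hφ (Finset.mem_univ φ)

/-- The set of `k`-points at which a given nonzero `b` does not vanish is infinite. -/
theorem infinite_setOf_apply_ne_zero (hB : ¬ IsField B) {b : B} (hb : b ≠ 0) :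
    {φ : B →ₐ[k] k | φ b ≠ 0}.Infinite := by
  classical
  intro hfin
  obtain ⟨φ, hφ, hφb⟩ := exists_algHom_notMem_finset k hB hfin.toFinset hb
  exact hφ (hfin.mem_toFinset.mpr hφb)

end Infinite

section Zeros

variable {B N : Type*} [CommRing B] [IsDedekindDomain B] [AddCommGroup N] [Module B N]

/-- In a Dedekind domain a nonzero element lies in only finitely many maximal ideals. -/
theorem finite_setOf_isMaximal_mem {a : B} (ha : a ≠ 0) :
    {m : Ideal B | m.IsMaximal ∧ a ∈ m}.Finite := by
  classical
  have hI : Ideal.span {a} ≠ (0 : Ideal B) := by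
    rw [Ne, Ideal.zero_eq_bot, Ideal.span_singleton_eq_bot]
    exact ha
  have hfin := Ideal.finite_factors hI
  refine (hfin.image (fun v => v.asIdeal)).subset ?_
  rintro m ⟨hmax, ham⟩
  have hm0 : m ≠ ⊥ := by
    rintro rfl
    exact ha (by simpa using ham)
  refine ⟨⟨m, hmax.isPrime, hm0⟩, ?_, rfl⟩
  show m ∣ Ideal.span {a}
  rw [Ideal.dvd_iff_le, Ideal.span_singleton_le_iff_mem]
  exact ham

/-- A nonzero element `s` of a finite projective module over a Dedekind domain vanishes
(i.e. `s ∈ m • ⊤`) at only finitely many maximal ideals `m`. -/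
theorem finite_zeros_of_section [Module.Finite B N] [Module.Projective B N] {s : N}
    (hs : s ≠ 0) : {m : Ideal B | m.IsMaximal ∧ s ∈ (m • ⊤ : Submodule B N)}.Finite := by
  classical
  -- a linear form not vanishing on `s`
  obtain ⟨φ, hφ⟩ : ∃ φ : N →ₗ[B] B, φ s ≠ 0 := by
    by_contra hcon
    push Not at hcon
    apply hs
    have hinj : Function.Injective (Module.Dual.eval B N) :=
      (Module.IsReflexive.bijective_dual_eval' (R := B) (M := N)).1
    apply hinj
    rw [map_zero]
    ext φ
    exact hcon φ
  refine (finite_setOf_isMaximal_mem hφ).subset ?_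
  rintro m ⟨hmax, hsm⟩
  refine ⟨hmax, ?_⟩
  refine Submodule.smul_induction_on hsm ?_ ?_
  · intro r hr n _
    rw [map_smul, smul_eq_mul]
    exact m.mul_mem_right _ hr
  · intro x y hx hy
    rw [map_add]
    exact m.add_mem hx hy

end Zeros

end Fermat.Agent.S25.H687
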