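/-
S25, block DICTDEG (helper687): the interface statements of `DDDefs.lean` discharged from the
hand-ins on main, and the resulting final forms of `Stmt.DictDeg` / `Stmt.Abel`.

* `bcId`     : `H327.CurveGD.isBC_id`
* `bcComp`   : composition of base changes (from `H371.isSemilinearBaseChange_comp`)
* `degIso`   : `H310.degree_eq_of_isIso`
* `degConst` : `H550.degConst`
* `dictUnit` : `H566.dictUnit`
-/
import Fermat.Agent.S25.H687.DDFinal
import Fermat.Agent.S25.H371.SemilinearBC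
import Fermat.Agent.S25.H310.DegreeInvariance
import Fermat.Agent.S25.H327.DictDegDefs
import Fermat.Agent.S25.H550.DegConst
import Fermat.Agent.S25.H566.DictUnit

set_option autoImplicit false
universe u
open CategoryTheory CategoryTheory.Limits AlgebraicGeometry AlgebraicGeometry.RelPicard
  NeronModelInfra GoodReductionJacobian
open scoped TensorProduct

namespace Fermat.Agent.S25.H687

section Alg

variable (k : Type u) [Field k] (B₀ B₁ B₀₁ : Type u) [CommRing B₀] [CommRing B₁] [CommRing B₀₁]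
  [Algebra k B₀] [Algebra k B₁] [Algebra k B₀₁] [Algebra B₀ B₀₁] [Algebra B₁ B₀₁]
  [IsScalarTower k B₀ B₀₁] [IsScalarTower k B₁ B₀₁]

theorem bcId : BCId k B₀ B₁ B₀₁ := fun _ _ _ G => H327.CurveGD.isBC_id G

theorem degIso : DegIso k B₀ B₁ B₀₁ := fun _ _ _ _ _ h => H310.degree_eq_of_isIso h

theorem degConst : DegConst k B₀ B₁ B₀₁ := H550.degConst

theorem tensorMapLeft_comp_apply {A A' A'' : Type u} [CommRing A] [Algebra k A] [CommRing A']
    [Algebra k A'] [CommRing A''] [Algebra k A''] (φ : A →ₐ[k] A') (ψ : A' →ₐ[k] A'')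
    (B : Type u) [CommRing B] [Algebra k B] (r : A ⊗[k] B) :
    tensorMapLeft k (ψ.comp φ) B r = tensorMapLeft k ψ B (tensorMapLeft k φ B r) := by
  change (Algebra.TensorProduct.map (ψ.comp φ) (AlgHom.id k B)) r =
    (Algebra.TensorProduct.map ψ (AlgHom.id k B))
      ((Algebra.TensorProduct.map φ (AlgHom.id k B)) r)
  induction r using TensorProduct.induction_on with
  | zero => simp
  | tmul a b => simp
  | add x y hx hy => simp only [map_add, hx, hy]

/-- Composition of two semilinear maps, semilinear for a ring homomorphism which is pointwise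
the composite. -/
def semilinearComp {R R' R'' : Type u} [CommRing R] [CommRing R'] [CommRing R'']
    {N N' N'' : Type u} [AddCommGroup N] [Module R N] [AddCommGroup N'] [Module R' N']
    [AddCommGroup N''] [Module R'' N''] {ρ : R →+* R'} {σ : R' →+* R''} (τ : R →+* R'')
    (hτ : ∀ r, τ r = σ (ρ r)) (b : N →ₛₗ[ρ] N') (c : N' →ₛₗ[σ] N'') : N →ₛₗ[τ] N'' where
  toFun n := c (b n)
  map_add' m n := by rw [b.map_add, c.map_add]
  map_smul' r n := by
    rw [LinearMap.map_smulₛₗ b, LinearMap.map_smulₛₗ c, hτ]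

theorem bcComp : BCComp k B₀ B₁ B₀₁ := by
  intro A A' A'' _ _ _ _ _ _ φ ψ G G' G'' h h'
  obtain ⟨m⟩ := h
  obtain ⟨m'⟩ := h'
  refine ⟨{
    b₀ := semilinearComp _ (tensorMapLeft_comp_apply k φ ψ B₀) m.b₀ m'.b₀
    b₁ := semilinearComp _ (tensorMapLeft_comp_apply k φ ψ B₁) m.b₁ m'.b₁
    b₀₁ := semilinearComp _ (tensorMapLeft_comp_apply k φ ψ B₀₁) m.b₀₁ m'.b₀₁
    comm₀ := fun s => by
      change m'.b₀₁ (m.b₀₁ (G.r₀ s)) = G''.r₀ (m'.b₀ (m.b₀ s))
      rw [m.comm₀, m'.comm₀]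
    comm₁ := fun s => by
      change m'.b₀₁ (m.b₀₁ (G.r₁ s)) = G''.r₁ (m'.b₁ (m.b₁ s))
      rw [m.comm₁, m'.comm₁]
    isBaseChange₀ := H371.isSemilinearBaseChange_comp _ _ _
      (tensorMapLeft_comp_apply k φ ψ B₀) m.b₀ m'.b₀ _ (fun _ => rfl)
      m.isBaseChange₀ m'.isBaseChange₀
    isBaseChange₁ := H371.isSemilinearBaseChange_comp _ _ _
      (tensorMapLeft_comp_apply k φ ψ B₁) m.b₁ m'.b₁ _ (fun _ => rfl)
      m.isBaseChange₁ m'.isBaseChange₁
    isBaseChange₀₁ := H371.isSemilinearBaseChange_comp _ _ _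
      (tensorMapLeft_comp_apply k φ ψ B₀₁) m.b₀₁ m'.b₀₁ _ (fun _ => rfl)
      m.isBaseChange₀₁ m'.isBaseChange₀₁ }⟩

end Alg

variable {k : Type u} [Field k] {C : Scheme.{u}} {c : C ⟶ Spec (CommRingCat.of k)}
  {ε : SchemeHomOver (𝟙 (Spec (CommRingCat.of k))) c}

theorem dictUnit (Ch : ChartOf c ε) : DictUnit Ch := fun A _ _ => H566.dictUnit Ch A

/-- **DICTDEG (⇒)**, all algebraic inputs discharged. -/
theorem deg0_of_fibrewiseAlgEquivZero' (Ch : ChartOf c ε)
    (hSec : Stmt.DictSections Ch) (hIso : Stmt.DictIso Ch) (hBC : Stmt.DictBC Ch)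
    (hEx : Stmt.AlgBCExists Ch)
    (A : Type u) [CommRing A] [Algebra k A] (M : RigidifiedLineBundle c ε (specStr k A))
    (G : CurveGD k Ch.B₀ Ch.B₁ Ch.B₀₁ A) (hG : Corr Ch A M.L G)
    (hM : FibrewiseAlgEquivZero M) : G.Deg0 :=
  dictDeg_mp Ch hSec hIso hBC hEx (dictUnit Ch) (bcId k _ _ _) (bcComp k _ _ _)
    (degIso k _ _ _) (degConst k _ _ _) A M G hG hM

/-- **DICTDEG**, all algebraic inputs discharged: only the dictionary, the existence of base
changes and the algebraic Abel family remain. -/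
theorem dictDeg_of_abelAlg (Ch : ChartOf c ε)
    (hSec : Stmt.DictSections Ch) (hIso : Stmt.DictIso Ch) (hBC : Stmt.DictBC Ch)
    (hEx : Stmt.AlgBCExists Ch) (hAbel : AbelAlg Ch) : Stmt.DictDeg Ch :=
  dictDeg_final Ch hSec hIso hBC hEx (dictUnit Ch) (bcId k _ _ _) (bcComp k _ _ _)
    (degIso k _ _ _) (degConst k _ _ _) hAbel

/-- **ABEL**, all algebraic inputs discharged. -/
theorem abel_of_abelAlg' (Ch : ChartOf c ε)
    (hSec : Stmt.DictSections Ch) (hIso : Stmt.DictIso Ch) (hBC : Stmt.DictBC Ch)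
    (hEx : Stmt.AlgBCExists Ch) (hAbel : AbelAlg Ch) : Stmt.Abel c ε :=
  abel_final Ch hSec hIso hBC hEx (dictUnit Ch) (bcId k _ _ _) (bcComp k _ _ _)
    (degIso k _ _ _) (degConst k _ _ _) hAbel

end Fermat.Agent.S25.H687
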