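/-
S25, block DICTDEG (helper687): closed forms.  With `DictIso` (helper986) and `DictBC`
(helper505) proved, `Stmt.DictDeg Ch` and `Stmt.Abel c ε` depend only on `DictSections`,
`AlgBCExists` and the algebraic Abel family `AbelAlg Ch`.
-/
import Fermat.Agent.S25.H687.DDInputs
import Fermat.Agent.S25.H986.DictIsoMpr
import Fermat.Agent.S25.H505.DictBC

set_option autoImplicit false
universe u
open CategoryTheory CategoryTheory.Limits AlgebraicGeometry AlgebraicGeometry.RelPicard
  NeronModelInfra GoodReductionJacobian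
open scoped TensorProduct

namespace Fermat.Agent.S25.H687

variable {k : Type u} [Field k] {C : Scheme.{u}} {c : C ⟶ Spec (CommRingCat.of k)}
  {ε : SchemeHomOver (𝟙 (Spec (CommRingCat.of k))) c}

/-- **DICTDEG (⇒)**: needs only `DictSections` and `AlgBCExists`. -/
theorem dictDeg_mp_closed (Ch : ChartOf c ε) (hSec : Stmt.DictSections Ch)
    (hEx : Stmt.AlgBCExists Ch)
    (A : Type u) [CommRing A] [Algebra k A] (M : RigidifiedLineBundle c ε (specStr k A))
    (G : CurveGD k Ch.B₀ Ch.B₁ Ch.B₀₁ A) (hG : Corr Ch A M.L G)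
    (hM : FibrewiseAlgEquivZero M) : G.Deg0 :=
  deg0_of_fibrewiseAlgEquivZero' Ch hSec (H986.dictIso Ch) (H505.dictBC Ch) hEx A M G hG hM

/-- **DICTDEG**: needs only `DictSections`, `AlgBCExists`, `AbelAlg`. -/
theorem dictDeg_closed (Ch : ChartOf c ε) (hSec : Stmt.DictSections Ch)
    (hEx : Stmt.AlgBCExists Ch) (hAbel : AbelAlg Ch) : Stmt.DictDeg Ch :=
  dictDeg_of_abelAlg Ch hSec (H986.dictIso Ch) (H505.dictBC Ch) hEx hAbel

/-- **ABEL**: needs only `DictSections`, `AlgBCExists`, `AbelAlg`. -/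
theorem abel_closed (Ch : ChartOf c ε) (hSec : Stmt.DictSections Ch)
    (hEx : Stmt.AlgBCExists Ch) (hAbel : AbelAlg Ch) : Stmt.Abel c ε :=
  abel_of_abelAlg' Ch hSec (H986.dictIso Ch) (H505.dictBC Ch) hEx hAbel

end Fermat.Agent.S25.H687
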