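/-
S25, blocks DICTDEG/ABEL (helper687): adapters.  `DictSections` (helper505) and `AlgBCExists`
(helper971) are proved, so `Stmt.DictDeg Ch` and `Stmt.Abel c ε` follow from the Abel family
alone, in any of the three shapes in circulation:
* `H687.AbelAlg Ch` (trivial `k`-fibre, hypothesis `G.degree = 0`),
* `TrivFamily Ch` (trivial `k`-fibre, hypothesis `G.Deg0`; this is the shape of
  `H746.Stmt.AbelFamily`, see `AbelAdapter746.lean`),
* `FibFamily Ch` (family fibrewise algebraically equivalent to zero, hypothesis `G.Deg0`).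
-/
import Fermat.Agent.S25.H687.DDClosed
import Fermat.Agent.S25.H505.DictSections
import Fermat.Agent.S25.H971.GlueBC

set_option autoImplicit false
universe u
open CategoryTheory CategoryTheory.Limits AlgebraicGeometry AlgebraicGeometry.RelPicard
  NeronModelInfra GoodReductionJacobian
open scoped TensorProduct

namespace Fermat.Agent.S25.H687

variable {k : Type u} [Field k] {C : Scheme.{u}} {c : C ⟶ Spec (CommRingCat.of k)}
  {ε : SchemeHomOver (𝟙 (Spec (CommRingCat.of k))) c}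

/-- **DICTDEG (⇒)**, hypothesis-free. -/
theorem dictDeg_mp_full (Ch : ChartOf c ε)
    (A : Type u) [CommRing A] [Algebra k A] (M : RigidifiedLineBundle c ε (specStr k A))
    (G : CurveGD k Ch.B₀ Ch.B₁ Ch.B₀₁ A) (hG : Corr Ch A M.L G)
    (hM : FibrewiseAlgEquivZero M) : G.Deg0 :=
  dictDeg_mp_closed Ch (H505.dictSections Ch) (H971.algBCExists Ch) A M G hG hM

/-- **DICTDEG** from the algebraic Abel family alone. -/
theorem dictDeg_of_abelAlg_only (Ch : ChartOf c ε) (hAbel : AbelAlg Ch) : Stmt.DictDeg Ch :=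
  dictDeg_closed Ch (H505.dictSections Ch) (H971.algBCExists Ch) hAbel

/-- **ABEL** from the algebraic Abel family alone. -/
theorem abel_of_abelAlg_only (Ch : ChartOf c ε) (hAbel : AbelAlg Ch) : Stmt.Abel c ε :=
  abel_closed Ch (H505.dictSections Ch) (H971.algBCExists Ch) hAbel

/-- Over a field, `degree = 0` implies `Deg0` (degree is invariant under field extension). -/
theorem deg0_of_degree_eq_zero (Ch : ChartOf c ε) (K : Type u) [Field K] [Algebra k K]
    (G : CurveGD k Ch.B₀ Ch.B₁ Ch.B₀₁ K) (h : G.degree = 0) : G.Deg0 := by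
  intro K' _ _ φ G' hG'
  rw [← h]
  exact (degConst k Ch.B₀ Ch.B₁ Ch.B₀₁ Ch.x Ch.y Ch.e Ch.isCurveChart K G K K'
    (AlgHom.id k K) φ G G' (bcId k Ch.B₀ Ch.B₁ Ch.B₀₁ K G) hG').symm

/-- Over a field, `Deg0` implies `degree = 0`. -/
theorem degree_eq_zero_of_deg0 (Ch : ChartOf c ε) (K : Type u) [Field K] [Algebra k K]
    (G : CurveGD k Ch.B₀ Ch.B₁ Ch.B₀₁ K) (h : G.Deg0) : G.degree = 0 :=
  h K (AlgHom.id k K) G (bcId k Ch.B₀ Ch.B₁ Ch.B₀₁ K G)

/-- The unit gluing datum over `k` has degree zero in the strong sense. -/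
theorem unit_deg0 (Ch : ChartOf c ε) (A : Type u) [CommRing A] [Algebra k A] :
    CurveGD.Deg0 (k := k) (B₀ := Ch.B₀) (B₁ := Ch.B₁) (B₀₁ := Ch.B₀₁)
      (GlueDatum.unit A (A ⊗[k] Ch.B₀) (A ⊗[k] Ch.B₁) (A ⊗[k] Ch.B₀₁)) :=
  dictDeg_mp_full Ch A (RigidifiedLineBundle.unit (c := c) (ε := ε) (specStr k A)) _
    (dictUnit Ch A) (fibrewiseAlgEquivZero_unit _)

/-- The Abel family with a trivial `k`-fibre and hypothesis `G.Deg0` (shape of the revised
`AbelFamily` of block ABEL). -/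
def TrivFamily (Ch : ChartOf c ε) : Prop :=
  ∃ (X : Scheme.{u}) (x : X ⟶ Spec (CommRingCat.of k)) (_ : IsProper x)
    (_ : GeometricallyIntegral x) (M : RigidifiedLineBundle c ε x)
    (t₀ : SchemeHomOver (𝟙 (Spec (CommRingCat.of k))) x),
    RIso (M.pullbackAlong t₀)
        (RigidifiedLineBundle.unit (c := c) (ε := ε) (𝟙 (Spec (CommRingCat.of k)))) ∧
      ∀ (K : Type u) [Field K] [IsAlgClosed K] [Algebra k K]
        (L : RigidifiedLineBundle c ε (specStr k K)) (G : CurveGD k Ch.B₀ Ch.B₁ Ch.B₀₁ K),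
        Corr Ch K L.L G → G.Deg0 →
        ∃ p : SchemeHomOver (specStr k K) x, RIso (M.pullbackAlong p) L

/-- `TrivFamily ⇒ AbelAlg`. -/
theorem abelAlg_of_trivFamily (Ch : ChartOf c ε) (h : TrivFamily Ch) : AbelAlg Ch := by
  obtain ⟨X, x, hx, hgi, M, t₀, ht₀, hsurj⟩ := h
  exact ⟨X, x, hx, hgi, M, t₀, ht₀, fun K _ _ _ L G hG hdeg =>
    hsurj K L G hG (deg0_of_degree_eq_zero Ch K G hdeg)⟩

/-- `AbelAlg ⇒ TrivFamily`. -/
theorem trivFamily_of_abelAlg (Ch : ChartOf c ε) (h : AbelAlg Ch) : TrivFamily Ch := by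
  obtain ⟨X, x, hx, hgi, M, t₀, ht₀, hsurj⟩ := h
  exact ⟨X, x, hx, hgi, M, t₀, ht₀, fun K _ _ _ L G hG hdeg =>
    hsurj K L G hG (degree_eq_zero_of_deg0 Ch K G hdeg)⟩

/-- Transport of a point over `t'` with `t' = 𝟙` to a point over `𝟙`. -/
theorem exists_point_of_eq_id {X : Scheme.{u}} {x : X ⟶ Spec (CommRingCat.of k)}
    (M : RigidifiedLineBundle c ε x) (t' : Spec (CommRingCat.of k) ⟶ Spec (CommRingCat.of k))
    (ht' : t' = 𝟙 _) (p : SchemeHomOver t' x)
    (hp : RIso (M.pullbackAlong p) (RigidifiedLineBundle.unit (c := c) (ε := ε) t')) :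
    ∃ t₀ : SchemeHomOver (𝟙 (Spec (CommRingCat.of k))) x,
      RIso (M.pullbackAlong t₀)
        (RigidifiedLineBundle.unit (c := c) (ε := ε) (𝟙 (Spec (CommRingCat.of k)))) := by
  subst ht'
  exact ⟨p, hp⟩

theorem specStr_self : specStr k k = 𝟙 (Spec (CommRingCat.of k)) := by
  rw [specStr, Algebra.algebraMap_self]
  exact Spec.map_id _

/-- The Abel family in the shape "fibrewise algebraically equivalent to zero" with hypothesis
`G.Deg0`. -/
def FibFamily (Ch : ChartOf c ε) : Prop :=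
  ∃ (X : Scheme.{u}) (x : X ⟶ Spec (CommRingCat.of k)) (_ : IsProper x)
    (_ : GeometricallyIntegral x) (M : RigidifiedLineBundle c ε x),
    FibrewiseAlgEquivZero M ∧
      ∀ (K : Type u) [Field K] [IsAlgClosed K] [Algebra k K]
        (L : RigidifiedLineBundle c ε (specStr k K)) (G : CurveGD k Ch.B₀ Ch.B₁ Ch.B₀₁ K),
        Corr Ch K L.L G → G.Deg0 →
        ∃ p : SchemeHomOver (specStr k K) x, RIso (M.pullbackAlong p) L

/-- `FibFamily ⇒ TrivFamily` (the trivial fibre is found with the surjectivity clause, applied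
to the unit bundle over `k`). -/
theorem trivFamily_of_fibFamily [IsAlgClosed k] (Ch : ChartOf c ε)
    (h : FibFamily Ch) : TrivFamily Ch := by
  obtain ⟨X, x, hx, hgi, M, -, hsurj⟩ := h
  obtain ⟨p, hp⟩ := hsurj k (RigidifiedLineBundle.unit (c := c) (ε := ε) (specStr k k)) _
    (dictUnit Ch k) (unit_deg0 Ch k)
  obtain ⟨t₀, ht₀⟩ := exists_point_of_eq_id M (specStr k k) specStr_self p hp
  exact ⟨X, x, hx, hgi, M, t₀, ht₀, hsurj⟩

/-- `FibFamily ⇒ AbelAlg`. -/
theorem abelAlg_of_fibFamily [IsAlgClosed k] (Ch : ChartOf c ε)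
    (h : FibFamily Ch) : AbelAlg Ch :=
  abelAlg_of_trivFamily Ch (trivFamily_of_fibFamily Ch h)

/-- `TrivFamily ⇒ FibFamily` (the family is fibrewise algebraically equivalent to zero because
the parameter space is geometrically integral and one fibre is trivial). -/
theorem fibFamily_of_trivFamily (Ch : ChartOf c ε) (h : TrivFamily Ch) : FibFamily Ch := by
  obtain ⟨X, x, hx, hgi, M, t₀, ht₀, hsurj⟩ := h
  have := hx
  have := hgi
  exact ⟨X, x, hx, hgi, M, fibrewiseAlgEquivZero_of_trivial_fibre x M t₀ ht₀, hsurj⟩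

end Fermat.Agent.S25.H687
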