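/-
S25, block ABEL (helper687): `H746.Stmt.AbelFamily Ch ⇒ H687.AbelAlg Ch` and
`H746.Stmt.AbelFamilyPt Ch ⇒ H687.AbelAlg Ch`, hence `Stmt.Abel c ε` and `Stmt.DictDeg Ch` from
`SheafGlue`, `DictGlue` and the purely algebraic `H746.Stmt.AlgAbel`.
(Independent duplicate of `H567.abelAlg_closed`, through `H746.abelFamily_of_alg`.)
-/
import Fermat.Agent.S25.H687.AbelAdapter
import Fermat.Agent.S25.H746.AbelMain

set_option autoImplicit false
universe u
open CategoryTheory CategoryTheory.Limits AlgebraicGeometry AlgebraicGeometry.RelPicard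
  NeronModelInfra GoodReductionJacobian
open scoped TensorProduct

namespace Fermat.Agent.S25.H687

variable {k : Type u} [Field k] {C : Scheme.{u}} {c : C ⟶ Spec (CommRingCat.of k)}
  {ε : SchemeHomOver (𝟙 (Spec (CommRingCat.of k))) c}

/-- `H746.Stmt.AbelFamilyPt ⇒ AbelAlg`. -/
theorem abelAlg_of_abelFamilyPt (Ch : ChartOf c ε) (h : H746.Stmt.AbelFamilyPt Ch) :
    AbelAlg Ch :=
  abelAlg_of_trivFamily Ch h

/-- `H746.Stmt.AbelFamily ⇒ AbelAlg`. -/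
theorem abelAlg_of_abelFamily [IsAlgClosed k] (Ch : ChartOf c ε)
    (h : H746.Stmt.AbelFamily Ch) : AbelAlg Ch :=
  abelAlg_of_fibFamily Ch h

/-- `Stmt.Abel` from `H746.Stmt.AbelFamily` alone. -/
theorem abel_of_abelFamily_only [IsAlgClosed k] (Ch : ChartOf c ε)
    (h : H746.Stmt.AbelFamily Ch) : Stmt.Abel c ε :=
  abel_of_abelAlg_only Ch (abelAlg_of_abelFamily Ch h)

/-- `Stmt.DictDeg` from `H746.Stmt.AbelFamily` alone. -/
theorem dictDeg_of_abelFamily_only [IsAlgClosed k] (Ch : ChartOf c ε)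
    (h : H746.Stmt.AbelFamily Ch) : Stmt.DictDeg Ch :=
  dictDeg_of_abelAlg_only Ch (abelAlg_of_abelFamily Ch h)

/-- **ABEL, algebraic form, reduced**: `AbelAlg Ch` from `SheafGlue`, `DictGlue` and the purely
algebraic statement `H746.Stmt.AlgAbel` (the scheme side is `H746.abelFamily_of_alg`; `DictIso`,
`DictBC`, `DictUnit` are discharged). -/
theorem abelAlg_of_alg [IsAlgClosed k] [IsProper c] [IsIntegral C] (Ch : ChartOf c ε)
    (hGlue : Stmt.SheafGlue c ε) (hDG : Stmt.DictGlue Ch)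
    (hAlg : H746.Stmt.AlgAbel k Ch.B₀ Ch.B₁ Ch.B₀₁) : AbelAlg Ch := by
  obtain ⟨Fam⟩ := hAlg Ch.x Ch.y Ch.e Ch.isCurveChart
  exact abelAlg_of_abelFamilyPt Ch
    (H746.abelFamily_of_alg Ch hGlue hDG (H986.dictIso Ch) (H505.dictBC Ch)
      (fun A _ _ => H566.dictUnit Ch A) Fam)

/-- `Stmt.Abel c ε` from `SheafGlue`, `DictGlue` and `H746.Stmt.AlgAbel`. -/
theorem abel_of_alg_only [IsAlgClosed k] [IsProper c] [IsIntegral C] (Ch : ChartOf c ε)
    (hGlue : Stmt.SheafGlue c ε) (hDG : Stmt.DictGlue Ch)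
    (hAlg : H746.Stmt.AlgAbel k Ch.B₀ Ch.B₁ Ch.B₀₁) : Stmt.Abel c ε :=
  abel_of_abelAlg_only Ch (abelAlg_of_alg Ch hGlue hDG hAlg)

/-- `Stmt.DictDeg Ch` from `SheafGlue`, `DictGlue` and `H746.Stmt.AlgAbel`. -/
theorem dictDeg_of_alg_only [IsAlgClosed k] [IsProper c] [IsIntegral C] (Ch : ChartOf c ε)
    (hGlue : Stmt.SheafGlue c ε) (hDG : Stmt.DictGlue Ch)
    (hAlg : H746.Stmt.AlgAbel k Ch.B₀ Ch.B₁ Ch.B₀₁) : Stmt.DictDeg Ch :=
  dictDeg_of_abelAlg_only Ch (abelAlg_of_alg Ch hGlue hDG hAlg)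

end Fermat.Agent.S25.H687
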