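/-
S25, block CURVE, leaf C5-ALGEBRA ("Riemann-lite"), helper687.

Pure commutative algebra, Mathlib only.

Setting: a two-chart curve `C = U0 ∪ U1` with rings `R0 = Γ(U0)`, `R1 = Γ(U1)`, `A = Γ(U0 ∩ U1)`,
restriction maps `r0 : R0 → A`, `r1 : R1 → A`, such that the Čech `H¹(O) = A / (r0 R0 + r1 R1)` is
finite-dimensional over `k`.  `R1` is a Dedekind domain, `I` a proper ideal of `R1` (the maximal
ideal of the point `eps ∈ U1 ∖ U0`), `y ∈ I` a function which becomes invertible on `U0 ∩ U1`.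

Conclusion: there is a function `x' ∈ R0` (regular on `U0`) which is NOT regular on `U1` but such
that `x' * I ^ m ⊆ R1` for some `m` (so that `x'` is regular on `U1 ∖ {eps}`): a function whose
only pole is at `eps`.
-/
import Mathlib

namespace Fermat.Agent.S25.H687

open Ideal

section Pole

variable {k R1 A : Type*} [CommSemiring k] [CommRing R1] [CommRing A] [Algebra k R1] [Algebra k A]

/-- Elements of `A` with "pole of order at most `m` along `I`": `a * I ^ m ⊆ r1 R1`. -/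
def poleLE (r1 : R1 →ₐ[k] A) (I : Ideal R1) (m : ℕ) : Submodule k A where
  carrier := {a | ∀ i ∈ I ^ m, a * r1 i ∈ r1.range}
  add_mem' := by
    intro a b ha hb i hi
    rw [add_mul]
    exact add_mem (ha i hi) (hb i hi)
  zero_mem' := by
    intro i _
    rw [zero_mul]
    exact zero_mem _
  smul_mem' := by
    intro c a ha i hi
    rw [Algebra.smul_mul_assoc]
    exact Subalgebra.smul_mem _ (ha i hi) c

theorem mem_poleLE {r1 : R1 →ₐ[k] A} {I : Ideal R1} {m : ℕ} {a : A} :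
    a ∈ poleLE r1 I m ↔ ∀ i ∈ I ^ m, a * r1 i ∈ r1.range := Iff.rfl

theorem range_le_poleLE (r1 : R1 →ₐ[k] A) (I : Ideal R1) (m : ℕ) :
    Subalgebra.toSubmodule r1.range ≤ poleLE r1 I m := by
  rintro _ ⟨b, rfl⟩ i _
  exact ⟨b * i, by simp⟩

theorem poleLE_zero (r1 : R1 →ₐ[k] A) (I : Ideal R1) :
    poleLE r1 I 0 = Subalgebra.toSubmodule r1.range := by
  refine le_antisymm ?_ (range_le_poleLE r1 I 0)
  intro a ha
  have := ha 1 (by simp)
  simpa using this

theorem poleLE_mono (r1 : R1 →ₐ[k] A) (I : Ideal R1) {m n : ℕ} (h : m ≤ n) :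
    poleLE r1 I m ≤ poleLE r1 I n := by
  intro a ha i hi
  exact ha i (Ideal.pow_le_pow_right h hi)

theorem poleLE_monotone (r1 : R1 →ₐ[k] A) (I : Ideal R1) : Monotone (poleLE r1 I) :=
  fun _ _ h => poleLE_mono r1 I h

/-- The ideal of denominators of `a : A` with respect to `R1`: all `s` with `a * s ∈ R1`.
Its zero locus is the pole locus of `a` on `Spec R1`. -/
def denomIdeal (r1 : R1 →ₐ[k] A) (a : A) : Ideal R1 where
  carrier := {s | a * r1 s ∈ r1.range}
  add_mem' := by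
    intro s t hs ht
    show a * r1 (s + t) ∈ r1.range
    rw [map_add, mul_add]
    exact add_mem hs ht
  zero_mem' := by
    show a * r1 0 ∈ r1.range
    rw [map_zero, mul_zero]
    exact zero_mem _
  smul_mem' := by
    intro c s hs
    show a * r1 (c • s) ∈ r1.range
    rw [smul_eq_mul, map_mul, mul_left_comm]
    exact mul_mem ⟨c, rfl⟩ hs

theorem mem_denomIdeal {r1 : R1 →ₐ[k] A} {a : A} {s : R1} :
    s ∈ denomIdeal r1 a ↔ a * r1 s ∈ r1.range := Iff.rfl

theorem denomIdeal_eq_top_iff {r1 : R1 →ₐ[k] A} {a : A} :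
    denomIdeal r1 a = ⊤ ↔ a ∈ r1.range := by
  rw [Ideal.eq_top_iff_one, mem_denomIdeal, map_one, mul_one]

theorem pow_le_denomIdeal_iff {r1 : R1 →ₐ[k] A} {a : A} {I : Ideal R1} {m : ℕ} :
    I ^ m ≤ denomIdeal r1 a ↔ a ∈ poleLE r1 I m := Iff.rfl

end Pole

section Strict

variable {k R1 A : Type*} [CommSemiring k] [CommRing R1] [IsDedekindDomain R1] [CommRing A]
  [Algebra k R1] [Algebra k A]

/-- Strictness of the pole filtration: in a Dedekind domain `R1` with a proper ideal `I`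
containing an element `y` which becomes a unit in `A ⊇ R1`, there is for every `m` an element
of `A` with pole order exactly `m + 1` along `I`. -/
theorem exists_mem_poleLE_succ_notMem (r1 : R1 →ₐ[k] A) (hinj : Function.Injective r1)
    (I : Ideal R1) (hI : I ≠ ⊤) (y : R1) (hyI : y ∈ I) (hy : IsUnit (r1 y)) (m : ℕ) :
    ∃ a, a ∈ poleLE r1 I (m + 1) ∧ a ∉ poleLE r1 I m := by
  classical
  have hy0 : y ≠ 0 := by
    rintro rfl
    rw [map_zero] at hy
    have : (1 : R1) = 0 := hinj (by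
      rw [map_one, map_zero]
      exact (isUnit_zero_iff.mp hy).symm)
    exact one_ne_zero this
  have hI0 : I ≠ ⊥ := by
    rintro rfl
    exact hy0 (by simpa using hyI)
  have hspan : Ideal.span {y ^ (m + 1)} ≠ (⊥ : Ideal R1) := by
    rw [Ne, Ideal.span_singleton_eq_bot]
    exact pow_ne_zero _ hy0
  have hle : Ideal.span {y ^ (m + 1)} ≤ I ^ (m + 1) := by
    rw [Ideal.span_singleton_le_iff_mem]
    exact Ideal.pow_mem_pow hyI _
  obtain ⟨J, hJ⟩ : I ^ (m + 1) ∣ Ideal.span {y ^ (m + 1)} := Ideal.dvd_iff_le.mpr hle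
  have hJ0 : J ≠ ⊥ := by
    rintro rfl
    apply hspan
    rw [hJ]
    simp
  have hIm0 : I ^ m ≠ ⊥ := pow_ne_zero _ hI0
  have hnot : ¬ (I ^ m * J ≤ Ideal.span {y ^ (m + 1)}) := by
    intro h
    rw [hJ, ← Ideal.dvd_iff_le, pow_succ, mul_assoc] at h
    have h1 : I * J ∣ 1 * J := by
      rw [one_mul]
      have := (mul_dvd_mul_iff_left hIm0).mp h
      exact this
    have h2 : I ∣ 1 := (mul_dvd_mul_iff_right hJ0).mp h1
    rw [Ideal.dvd_iff_le, Ideal.one_eq_top, top_le_iff] at h2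
    exact hI h2
  rw [Ideal.mul_le] at hnot
  push Not at hnot
  obtain ⟨i, hi, b, hb, hib⟩ := hnot
  refine ⟨r1 b * ((hy.unit⁻¹ : Aˣ) : A) ^ (m + 1), ?_, ?_⟩
  · intro i' hi'
    have hmem : i' * b ∈ Ideal.span {y ^ (m + 1)} := by
      rw [hJ]
      exact Ideal.mul_mem_mul hi' hb
    obtain ⟨c, hc⟩ := Ideal.mem_span_singleton'.mp hmem
    refine ⟨c, ?_⟩
    have hu : r1 y * ((hy.unit⁻¹ : Aˣ) : A) = 1 := by
      have := hy.unit.mul_inv
      simp
    have h3 : r1 b * r1 i' = r1 c * r1 y ^ (m + 1) := by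
      rw [← map_mul, ← map_pow, ← map_mul, hc, mul_comm]
    show r1 c = r1 b * ((hy.unit⁻¹ : Aˣ) : A) ^ (m + 1) * r1 i'
    calc r1 c = r1 c * (r1 y * ((hy.unit⁻¹ : Aˣ) : A)) ^ (m + 1) := by rw [hu, one_pow, mul_one]
      _ = (r1 c * r1 y ^ (m + 1)) * ((hy.unit⁻¹ : Aˣ) : A) ^ (m + 1) := by rw [mul_pow, mul_assoc]
      _ = r1 b * ((hy.unit⁻¹ : Aˣ) : A) ^ (m + 1) * r1 i' := by rw [← h3]; ring
  · intro h
    obtain ⟨c, hc⟩ := h i hi
    apply hib
    rw [Ideal.mem_span_singleton']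
    refine ⟨c, hinj ?_⟩
    have hu : ((hy.unit⁻¹ : Aˣ) : A) * r1 y = 1 := by
      have := hy.unit.inv_mul
      simp
    have hc' : r1 c = r1 b * ((hy.unit⁻¹ : Aˣ) : A) ^ (m + 1) * r1 i := hc
    rw [map_mul, map_mul, map_pow, hc']
    calc r1 b * ((hy.unit⁻¹ : Aˣ) : A) ^ (m + 1) * r1 i * r1 y ^ (m + 1)
        = r1 b * r1 i * (((hy.unit⁻¹ : Aˣ) : A) * r1 y) ^ (m + 1) := by rw [mul_pow]; ring
      _ = r1 i * r1 b := by rw [hu, one_pow, mul_one, mul_comm]

end Strict

section Main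

variable {k R0 R1 A : Type*} [Field k] [CommRing R0] [CommRing R1] [IsDedekindDomain R1]
  [CommRing A] [Algebra k R0] [Algebra k R1] [Algebra k A]

/-- **Riemann-lite.**  Two-chart data with finite-dimensional Čech `H¹(O)`; `I` a proper ideal of
the Dedekind domain `R1` containing an element `y` invertible on the overlap.  Then there is a
function `x0` on the chart `U0` which is not regular on `U1`, but with `x0 * I ^ m ⊆ R1` for
some `m`. -/
theorem exists_pole_only_at (r0 : R0 →ₐ[k] A) (r1 : R1 →ₐ[k] A) (hinj : Function.Injective r1)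
    (hfin : IsNoetherian k
      (A ⧸ (Subalgebra.toSubmodule r0.range ⊔ Subalgebra.toSubmodule r1.range)))
    (I : Ideal R1) (hI : I ≠ ⊤) (y : R1) (hyI : y ∈ I) (hy : IsUnit (r1 y)) :
    ∃ (m : ℕ) (x0 : R0), r0 x0 ∉ r1.range ∧ ∀ i ∈ I ^ m, r0 x0 * r1 i ∈ r1.range := by
  classical
  set S : Submodule k A := Subalgebra.toSubmodule r0.range ⊔ Subalgebra.toSubmodule r1.range
    with hS
  -- key claim: some element of `poleLE m ∩ (R0 + R1)` is not in `R1`
  have key : ∃ m a, a ∈ poleLE r1 I m ∧ a ∈ S ∧ a ∉ r1.range := by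
    by_contra hcon
    push Not at hcon
    let P : ℕ →o Submodule k (A ⧸ S) :=
      ⟨fun m => (poleLE r1 I m).map S.mkQ,
        fun m n h => Submodule.map_mono (poleLE_mono r1 I h)⟩
    obtain ⟨n, hn⟩ := (monotone_stabilizes_iff_noetherian.mpr hfin) P
    have hnn : P n = P (n + 1) := hn (n + 1) (Nat.le_succ n)
    obtain ⟨f, hf1, hf2⟩ := exists_mem_poleLE_succ_notMem r1 hinj I hI y hyI hy n
    have hfP : S.mkQ f ∈ P (n + 1) := Submodule.mem_map_of_mem hf1
    rw [← hnn] at hfP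
    obtain ⟨a', ha', haf⟩ := hfP
    have hsub : f - a' ∈ S := by
      have : S.mkQ (f - a') = 0 := by rw [map_sub, haf, sub_self]
      exact (Submodule.Quotient.mk_eq_zero S).mp this
    have hsub2 : f - a' ∈ poleLE r1 I (n + 1) :=
      sub_mem hf1 (poleLE_mono r1 I (Nat.le_succ n) ha')
    have h3 : f - a' ∈ r1.range := hcon (n + 1) (f - a') hsub2 hsub
    have h4 : f - a' ∈ poleLE r1 I n := range_le_poleLE r1 I n h3
    apply hf2
    have : f = (f - a') + a' := by ring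
    rw [this]
    exact add_mem h4 ha'
  obtain ⟨m, a, ham, haS, har⟩ := key
  obtain ⟨u, hu, v, hv, rfl⟩ := Submodule.mem_sup.mp haS
  obtain ⟨x0, rfl⟩ := hu
  obtain ⟨b1, rfl⟩ := hv
  refine ⟨m, x0, ?_, ?_⟩
  · intro h
    apply har
    exact add_mem h ⟨b1, rfl⟩
  · have h5 : r0 x0 ∈ poleLE r1 I m := by
      have h6 : (r0 x0 : A) = (r0 x0 + r1 b1) - r1 b1 := by ring
      rw [h6]
      exact sub_mem ham (range_le_poleLE r1 I m ⟨b1, rfl⟩)
    exact h5

/-- **Riemann-lite, pole-locus form.**  With `I` maximal: there is `x0 : R0` whose denominator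
ideal in `R1` is a proper ideal contained in no maximal ideal other than `I` (and contains a
power of `I`): the only pole of `x0` on `U1` is the point `I`. -/
theorem exists_denomIdeal_pole_only_at (r0 : R0 →ₐ[k] A) (r1 : R1 →ₐ[k] A)
    (hinj : Function.Injective r1)
    (hfin : IsNoetherian k
      (A ⧸ (Subalgebra.toSubmodule r0.range ⊔ Subalgebra.toSubmodule r1.range)))
    (I : Ideal R1) [hImax : I.IsMaximal] (y : R1) (hyI : y ∈ I) (hy : IsUnit (r1 y)) :
    ∃ (x0 : R0), r0 x0 ∉ r1.range ∧ denomIdeal r1 (r0 x0) ≠ ⊤ ∧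
      (∃ m : ℕ, I ^ m ≤ denomIdeal r1 (r0 x0)) ∧ denomIdeal r1 (r0 x0) ≤ I ∧
      ∀ P : Ideal R1, P.IsMaximal → denomIdeal r1 (r0 x0) ≤ P → P = I := by
  obtain ⟨m, x0, h1, h2⟩ := exists_pole_only_at r0 r1 hinj hfin I hImax.ne_top y hyI hy
  have hne : denomIdeal r1 (r0 x0) ≠ ⊤ := fun h => h1 (denomIdeal_eq_top_iff.mp h)
  have hpow : I ^ m ≤ denomIdeal r1 (r0 x0) := h2
  have hP : ∀ P : Ideal R1, P.IsMaximal → denomIdeal r1 (r0 x0) ≤ P → P = I := by
    intro P hPmax hle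
    have h3 : I ^ m ≤ P := hpow.trans hle
    have h4 : I ≤ P := hPmax.isPrime.le_of_pow_le h3
    exact (hImax.eq_of_le hPmax.ne_top h4).symm
  refine ⟨x0, h1, hne, ⟨m, hpow⟩, ?_, hP⟩
  obtain ⟨P, hPmax, hPle⟩ := Ideal.exists_le_maximal _ hne
  rw [← hP P hPmax hPle]
  exact hPle

end Main

end Fermat.Agent.S25.H687
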