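/-
S25 / CURVE leaf S2, core part (helper687).  Mathlib only, complete.

Setting: an integral scheme `C` all of whose nonempty affine opens have a Dedekind ring of
sections (hypothesis `hD`).  Then: non-generic points are closed, their local rings are DVRs,
every local ring is a valuation ring of the function field, and (if `C` is a noetherian space)
proper closed subsets are finite sets of closed points.
-/
import Mathlib

set_option autoImplicit false

universe u

open CategoryTheory AlgebraicGeometry TensorProduct TopologicalSpace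

namespace Fermat.Agent.S25.H687

section Core

/-! ### Core statements: an integral scheme all of whose nonempty affine opens have Dedekind
rings of sections. -/

variable {C : Scheme.{u}} [IsIntegral C]

theorem genericPoint_mem_of_nonempty (U : C.Opens) (h : Nonempty U) : genericPoint C ∈ U :=
  ((genericPoint_spec C).mem_open_set_iff U.isOpen).mpr (by simpa using h)

omit [IsIntegral C] in
/-- `primeIdealOf` is injective. -/
theorem primeIdealOf_injective {U : C.Opens} (hU : IsAffineOpen U) :
    Function.Injective hU.primeIdealOf := by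
  intro a b hab
  have := congrArg (fun z => hU.fromSpec z) hab
  simp only [IsAffineOpen.fromSpec_primeIdealOf] at this
  exact Subtype.ext this

/-- The prime ideal of a point of an affine open is `⊥` iff the point is the generic point. -/
theorem primeIdealOf_eq_bot_iff {U : C.Opens} (hU : IsAffineOpen U) (P : C) (hP : P ∈ U) :
    (hU.primeIdealOf ⟨P, hP⟩).asIdeal = ⊥ ↔ P = genericPoint C := by
  have : Nonempty U := ⟨⟨P, hP⟩⟩
  have hgen := hU.primeIdealOf_genericPoint
  rw [genericPoint_eq_bot_of_affine] at hgen
  constructor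
  · intro h
    have h2 : hU.primeIdealOf ⟨P, hP⟩ = hU.primeIdealOf ⟨genericPoint C,
        genericPoint_mem_of_nonempty U ‹_›⟩ := by
      rw [hgen]
      exact PrimeSpectrum.ext h
    exact congrArg Subtype.val (primeIdealOf_injective hU h2)
  · rintro rfl
    exact congrArg PrimeSpectrum.asIdeal hgen

omit [IsIntegral C] in
/-- Specialization in `C` between points of an affine open gives inclusion of primes. -/
theorem primeIdealOf_le_of_specializes {U : C.Opens} (hU : IsAffineOpen U) {P Q : C}
    (hP : P ∈ U) (hQ : Q ∈ U) (h : P ⤳ Q) :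
    (hU.primeIdealOf ⟨P, hP⟩).asIdeal ≤ (hU.primeIdealOf ⟨Q, hQ⟩).asIdeal := by
  have h1 : (⟨P, hP⟩ : U) ⤳ ⟨Q, hQ⟩ :=
    (Topology.IsInducing.subtypeVal (t := (U : Set C))).specializes_iff.mp h
  have h2 : hU.primeIdealOf ⟨P, hP⟩ ⤳ hU.primeIdealOf ⟨Q, hQ⟩ :=
    h1.map hU.isoSpec.hom.continuous
  exact (PrimeSpectrum.le_iff_specializes _ _).mpr h2

/-- In an integral scheme whose affine opens have Dedekind rings of sections, a non-generic
point is closed. -/
theorem isClosed_singleton_of_ne_genericPoint
    (hD : ∀ U : C.Opens, IsAffineOpen U → Nonempty U → IsDedekindDomain Γ(C, U))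
    (P : C) (hP : P ≠ genericPoint C) : IsClosed ({P} : Set C) := by
  rw [← closure_subset_iff_isClosed]
  intro Q hQ
  have hspec : P ⤳ Q := specializes_iff_mem_closure.mpr hQ
  obtain ⟨_, ⟨U, hU, rfl⟩, hQU, -⟩ :=
    C.isBasis_affineOpens.exists_subset_of_mem_open (Set.mem_univ Q) isOpen_univ
  have hPU : P ∈ U := hspec.mem_open U.isOpen hQU
  have hne : Nonempty U := ⟨⟨P, hPU⟩⟩
  have := hD U hU hne
  have hle := primeIdealOf_le_of_specializes hU hPU hQU hspec
  have hP0 : (hU.primeIdealOf ⟨P, hPU⟩).asIdeal ≠ ⊥ :=
    fun h => hP ((primeIdealOf_eq_bot_iff hU P hPU).mp h)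
  have hmax : (hU.primeIdealOf ⟨P, hPU⟩).asIdeal.IsMaximal :=
    (hU.primeIdealOf ⟨P, hPU⟩).isPrime.isMaximal hP0
  have heq : (hU.primeIdealOf ⟨P, hPU⟩).asIdeal = (hU.primeIdealOf ⟨Q, hQU⟩).asIdeal :=
    hmax.eq_of_le (hU.primeIdealOf ⟨Q, hQU⟩).isPrime.ne_top hle
  have := primeIdealOf_injective hU (PrimeSpectrum.ext heq)
  exact (congrArg Subtype.val this).symm

/-- If the generic point of an integral scheme is closed, then the sections over any nonempty
affine open form a field. -/
theorem isField_sections_of_isClosed_genericPoint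
    (h : IsClosed ({genericPoint C} : Set C)) {U : C.Opens} (hU : IsAffineOpen U)
    (hne : Nonempty U) : IsField Γ(C, U) := by
  have hmem := genericPoint_mem_of_nonempty U hne
  have hmax := hU.primeIdealOf_isMaximal_of_isClosed ⟨genericPoint C, hmem⟩ h
  rw [(primeIdealOf_eq_bot_iff hU _ hmem).mpr rfl] at hmax
  exact Ring.isField_iff_maximal_bot.mpr hmax

/-- The local ring at a non-generic point is a discrete valuation ring. -/
theorem isDiscreteValuationRing_stalk_of_ne_genericPoint
    (hD : ∀ U : C.Opens, IsAffineOpen U → Nonempty U → IsDedekindDomain Γ(C, U))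
    (P : C) (hP : P ≠ genericPoint C) : IsDiscreteValuationRing (C.presheaf.stalk P) := by
  obtain ⟨_, ⟨U, hU, rfl⟩, hPU, -⟩ :=
    C.isBasis_affineOpens.exists_subset_of_mem_open (Set.mem_univ P) isOpen_univ
  have hne : Nonempty U := ⟨⟨P, hPU⟩⟩
  have := hD U hU hne
  have hP0 : (hU.primeIdealOf ⟨P, hPU⟩).asIdeal ≠ ⊥ :=
    fun h => hP ((primeIdealOf_eq_bot_iff hU P hPU).mp h)
  let _ : Algebra Γ(C, U) (C.presheaf.stalk P) :=
    TopCat.Presheaf.algebra_section_stalk C.presheaf ⟨P, hPU⟩
  have hloc : IsLocalization.AtPrime (C.presheaf.stalk P)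
      (hU.primeIdealOf ⟨P, hPU⟩).asIdeal := hU.isLocalization_stalk ⟨P, hPU⟩
  exact IsLocalization.AtPrime.isDiscreteValuationRing_of_dedekind_domain Γ(C, U) hP0
    (C.presheaf.stalk P)

/-- Valuation property of a valuation ring inside its fraction field, in the form used for
poles: either `f` is integral, or `f⁻¹` lies in the maximal ideal. -/
theorem mem_range_or_exists_mem_maximalIdeal_of_valuationRing (A K : Type*) [CommRing A]
    [IsDomain A] [ValuationRing A] [Field K] [Algebra A K] [IsFractionRing A K]
    (f : K) :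
    f ∈ Set.range (algebraMap A K) ∨
      ∃ t ∈ IsLocalRing.maximalIdeal A, algebraMap A K t * f = 1 := by
  rcases ValuationRing.isInteger_or_isInteger A f with h | h
  · exact Or.inl h
  · by_cases hf : f ∈ Set.range (algebraMap A K)
    · exact Or.inl hf
    · right
      obtain ⟨t, ht⟩ := h
      have hf0 : f ≠ 0 := by
        rintro rfl
        exact hf ⟨0, map_zero _⟩
      refine ⟨t, ?_, ?_⟩
      · rw [IsLocalRing.mem_maximalIdeal, mem_nonunits_iff]
        intro hu
        apply hf
        obtain ⟨u, rfl⟩ := hu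
        refine ⟨((u⁻¹ : Aˣ) : A), ?_⟩
        have h1 : algebraMap A K ((u⁻¹ : Aˣ) : A) * algebraMap A K (u : A) = 1 := by
          rw [← map_mul, Units.inv_mul, map_one]
        rw [ht] at h1
        have h2 : algebraMap A K ((u⁻¹ : Aˣ) : A) * f⁻¹ * f = 1 * f := by rw [h1]
        rw [mul_assoc, inv_mul_cancel₀ hf0, mul_one, one_mul] at h2
        exact h2
      · rw [ht, inv_mul_cancel₀ hf0]

/-- Every local ring of `C` is a valuation ring of the function field. -/
theorem mem_range_or_exists_mem_maximalIdeal_core
    (hD : ∀ U : C.Opens, IsAffineOpen U → Nonempty U → IsDedekindDomain Γ(C, U))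
    (P : C) (f : C.functionField) :
    f ∈ Set.range (algebraMap (C.presheaf.stalk P) C.functionField) ∨
      ∃ t ∈ IsLocalRing.maximalIdeal (C.presheaf.stalk P),
        algebraMap (C.presheaf.stalk P) C.functionField t * f = 1 := by
  by_cases hP : P = genericPoint C
  · left
    have hfield : IsField (C.presheaf.stalk P) := by
      rw [hP]
      exact Field.toIsField C.functionField
    exact Set.mem_range.mpr ((IsFractionRing.surjective_iff_isField
      (R := C.presheaf.stalk P) (K := C.functionField)).mpr hfield f)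
  · have := isDiscreteValuationRing_stalk_of_ne_genericPoint hD P hP
    exact mem_range_or_exists_mem_maximalIdeal_of_valuationRing _ _ f

/-- A proper closed subset of `C` is a finite set of closed points. -/
theorem finite_of_isClosed_of_ne_univ_core [NoetherianSpace C]
    (hD : ∀ U : C.Opens, IsAffineOpen U → Nonempty U → IsDedekindDomain Γ(C, U))
    {Z : Set C} (hZ : IsClosed Z) (hne : Z ≠ Set.univ) :
    Z.Finite ∧ ∀ P ∈ Z, IsClosed ({P} : Set C) := by
  have hgen : genericPoint C ∉ Z := by
    intro h
    apply hne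
    rw [← Set.univ_subset_iff, ← (genericPoint_spec C).def]
    exact hZ.closure_subset_iff.mpr (Set.singleton_subset_iff.mpr h)
  have hcl : ∀ P ∈ Z, IsClosed ({P} : Set C) := fun P hP =>
    isClosed_singleton_of_ne_genericPoint hD P (fun h => hgen (h ▸ hP))
  refine ⟨?_, hcl⟩
  obtain ⟨S, hSfin, hSirr, hS⟩ :=
    NoetherianSpace.exists_finite_set_closeds_irreducible (⟨Z, hZ⟩ : Closeds C)
  have hZeq : Z = ⋃ t ∈ S, (t : Set C) := by
    have := congrArg (fun t : Closeds C => (t : Set C)) hS
    simp only [Closeds.coe_mk] at this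
    rw [this, Closeds.coe_sSup, Set.sUnion_image]
    refine IsClosed.closure_eq ?_
    exact hSfin.isClosed_biUnion fun t _ => t.isClosed
  rw [hZeq]
  refine hSfin.biUnion fun t ht => ?_
  obtain ⟨ξ, hξ⟩ := QuasiSober.sober (hSirr t ht) t.isClosed
  have hξZ : ξ ∈ Z := by
    rw [hZeq]
    exact Set.mem_biUnion ht hξ.mem
  have : (t : Set C) = {ξ} := by
    rw [← hξ.def, (hcl ξ hξZ).closure_eq]
  rw [this]
  exact Set.finite_singleton ξ

end Core

end Fermat.Agent.S25.H687
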